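/-
S45lib / Gauss / Place  (helper2)  --  brick (B) of Project J: the `Norm.Place` of a Gauss valuation

* `gaussResidue A ι hι : Subfield k((t))` : the image of the reduction map (the residue field of
  the Gauss valuation of `F`, as a subfield of `k((t))`);
* `gaussPlace A ι hι : Norm.Place F (gaussResidue A ι hι)` with `O = gaussVS A ι hι`;
* `gaussPlace_redF_of_int`, `gaussPlace_redF_of_ratio` : its total reduction on elements with
  integral image / given by a Gauss ratio.
-/
import Mathlib
import Fermat.Agent.S45lib.Gauss.Basic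
import Fermat.Agent.S36lib.Norm.Place

set_option autoImplicit false

noncomputable section

namespace Fermat.Agent.S45lib.Gauss

open HahnSeries IsLocalRing Fermat.Agent.S36lib.Norm

variable {L : Type*} [Field L] (A : ValuationSubring L)
variable {F : Type*} [Field F] (ι : F →+* LaurentSeries L)
variable (hι : ∀ x : F, x ≠ 0 → HasGaussRatio A ι x)

/-- the reduction of the inverse of a unit -/
theorem gaussRedVS_inv {x : gaussVS A ι hι} (hx : gaussRedVS A ι hι x ≠ 0) :
    ∃ y : gaussVS A ι hι, gaussRedVS A ι hι y = (gaussRedVS A ι hι x)⁻¹ := by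
  have h1 : ¬ (gaussVS A ι hι).valuation (x : F) < 1 := fun h =>
    hx ((gaussRed_eq_zero_iff A ι hι x).2 h)
  have h2 : (gaussVS A ι hι).valuation (x : F) = 1 :=
    le_antisymm ((gaussVS A ι hι).valuation_le_one x) (not_lt.1 h1)
  have h3 : (x : F)⁻¹ ∈ gaussVS A ι hι := by
    rw [← ValuationSubring.valuation_le_one_iff, map_inv₀, h2, inv_one]
  have hx0 : (x : F) ≠ 0 := by
    intro h0
    rw [h0, map_zero] at h2
    exact zero_ne_one h2
  refine ⟨⟨_, h3⟩, ?_⟩
  have h4 : (⟨_, h3⟩ : gaussVS A ι hι) * x = 1 := Subtype.ext (inv_mul_cancel₀ hx0)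
  have h5 := congrArg (gaussRedVS A ι hι) h4
  rw [map_mul, map_one] at h5
  exact eq_inv_of_mul_eq_one_left h5

/-- the residue field of the Gauss valuation, inside `k((t))` -/
def gaussResidue : Subfield (LaurentSeries (ResidueField A)) :=
  { (gaussRedVS A ι hι).range with
    inv_mem' := by
      rintro y ⟨x, rfl⟩
      rcases eq_or_ne (gaussRedVS A ι hι x) 0 with h0 | h0
      · rw [h0, inv_zero]
        exact (gaussRedVS A ι hι).range.zero_mem
      · obtain ⟨y, hy⟩ := gaussRedVS_inv A ι hι h0
        exact ⟨y, hy⟩ }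

theorem mem_gaussResidue_iff (y : LaurentSeries (ResidueField A)) :
    y ∈ gaussResidue A ι hι ↔ ∃ x : gaussVS A ι hι, gaussRedVS A ι hι x = y := Iff.rfl

/-- **the place of the Gauss valuation** -/
def gaussPlace : Place F (gaussResidue A ι hι) where
  O := gaussVS A ι hι
  red := (gaussRedVS A ι hι).codRestrict (gaussResidue A ι hι).toSubring (fun x => ⟨x, rfl⟩)
  red_surjective := by
    rintro ⟨y, x, rfl⟩
    exact ⟨x, rfl⟩

@[simp] theorem gaussPlace_O : (gaussPlace A ι hι).O = gaussVS A ι hι := rfl

theorem gaussPlace_red_coe (x : gaussVS A ι hι) :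
    (((gaussPlace A ι hι).red x : gaussResidue A ι hι) : LaurentSeries (ResidueField A)) =
      gaussRedVS A ι hι x := rfl

theorem gaussPlace_redF_coe {x : F} (hx : x ∈ gaussSubring A ι) :
    (((gaussPlace A ι hι).redF x : gaussResidue A ι hι) : LaurentSeries (ResidueField A)) =
      gaussRed A ι ⟨x, hx⟩ := by
  rw [(gaussPlace A ι hι).redF_of_mem (show x ∈ (gaussPlace A ι hι).O from hx)]
  rfl

/-- on elements with integral image the reduction is coefficientwise -/
theorem gaussPlace_redF_of_int {x : F} {g : LaurentSeries A} (e : ι x = incl A g) :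
    (((gaussPlace A ι hι).redF x : gaussResidue A ι hι) : LaurentSeries (ResidueField A)) =
      red A g := by
  rw [gaussPlace_redF_coe A ι hι (mem_gaussSubring_of_int A ι e)]
  exact gaussRed_of_int A ι _ e

/-- the reduction of an element given by a Gauss ratio with integral constant -/
theorem gaussPlace_redF_of_ratio {x : F} {c : L} (hc : c ∈ A) {g h : LaurentSeries A}
    (hg : red A g ≠ 0) (hh : red A h ≠ 0) (e : ι x * incl A h = HahnSeries.C c * incl A g) :
    (((gaussPlace A ι hι).redF x : gaussResidue A ι hι) : LaurentSeries (ResidueField A)) =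
      HahnSeries.C (residue A ⟨c, hc⟩) * red A g / red A h := by
  rw [gaussPlace_redF_coe A ι hι ((mem_gaussSubring_iff_of_ratio A ι hg hh e).2 hc)]
  exact gaussRed_of_ratio A ι _ hc hh e

end Fermat.Agent.S45lib.Gauss
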