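/-
S45lib / Gauss / Subst  (helper2)  --  brick (T2) of Project J

**Substitutions `t ↦ ζ t^m` and coefficientwise maps: compatibility, and functoriality of the Gauss
place.**

Main has the substitutions `ModularCurve.qExpand R n` (`t ↦ t^n`), `S28lib.twist ζ` (`t ↦ ζ t`) and
the coefficientwise map `ModularCurve.coeffMap φ` (`= Gauss.mapLS φ`).

* `mapLS_eq_coeffMap`, `mapLS_qExpand`, `mapLS_twist`;
* `CoeffCompat A T TA Tk` : a ring endomorphism `T` of `L((t))` restricting to `TA` on `A((t))` and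
  inducing `Tk` on `k((t))`, and mapping constants to constants; `compat_id`, `compat_qExpand`,
  `compat_twist`, `CoeffCompat.comp`, `substLS ζ m = (t ↦ ζ t^m)` and `compat_substLS`;
* **functoriality**: for `ι' = T.comp ι` : `mem_gaussSubring_comp`, `gaussRed_comp`
  (`gaussRed ι' x = Tk (gaussRed ι x)`), `HasGaussRatio.comp`, **`gaussVS_comp_eq`** (the two Gauss
  valuation rings coincide) and the `Place` versions `gaussPlace_comp_O`, `gaussPlace_comp_redF`.
-/
import Mathlib
import Fermat.Agent.S45lib.Gauss.Basic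
import Fermat.Agent.S45lib.Gauss.Place
import Fermat.Agent.S28lib.Defs
import Fermat.Agent.S28lib.Twist
import Fermat.Prelude.Thm_ModularCurve_coeffMap_qExpand

set_option autoImplicit false

noncomputable section

namespace Fermat.Agent.S45lib.Gauss

open HahnSeries IsLocalRing ModularCurve Fermat.Agent.S28lib Fermat.Agent.S36lib.Norm

/-! ### coefficientwise maps and substitutions -/

section Coeff

variable {R S : Type*} [CommRing R] [CommRing S]

theorem mapLS_eq_coeffMap (φ : R →+* S) : mapLS φ = coeffMap φ :=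
  RingHom.ext fun _ => rfl

theorem mapLS_qExpand (φ : R →+* S) (n : ℕ) [NeZero n] (x : LaurentSeries R) :
    mapLS φ (qExpand R n x) = qExpand S n (mapLS φ x) := by
  rw [mapLS_eq_coeffMap]
  exact coeffMap_qExpand φ n x

theorem mapLS_twist (φ : R →+* S) (ζ : Rˣ) (x : LaurentSeries R) :
    mapLS φ (twist ζ x) = twist (Units.map (φ : R →* S) ζ) (mapLS φ x) := by
  ext n
  rw [mapLS_coeff, twist_coeff, twist_coeff, mapLS_coeff, map_mul, ← map_zpow, Units.coe_map]
  rfl

end Coeff

/-! ### endomorphisms of `L((t))` compatible with `A((t))` and `k((t))` -/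

section Compat

variable {L : Type*} [Field L] (A : ValuationSubring L)

/-- `T` restricts to `TA` on `A((t))`, induces `Tk` on `k((t))`, and maps constants to constants -/
structure CoeffCompat (T : LaurentSeries L →+* LaurentSeries L)
    (TA : LaurentSeries A →+* LaurentSeries A)
    (Tk : LaurentSeries (ResidueField A) →+* LaurentSeries (ResidueField A)) : Prop where
  incl : ∀ g, incl A (TA g) = T (incl A g)
  red : ∀ g, red A (TA g) = Tk (red A g)
  const : ∀ c : L, ∃ c' : L, T (HahnSeries.C c) = HahnSeries.C c'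

theorem compat_id : CoeffCompat A (RingHom.id _) (RingHom.id _) (RingHom.id _) :=
  ⟨fun _ => rfl, fun _ => rfl, fun c => ⟨c, rfl⟩⟩

theorem CoeffCompat.comp {T T' : LaurentSeries L →+* LaurentSeries L}
    {TA TA' : LaurentSeries A →+* LaurentSeries A}
    {Tk Tk' : LaurentSeries (ResidueField A) →+* LaurentSeries (ResidueField A)}
    (h : CoeffCompat A T TA Tk) (h' : CoeffCompat A T' TA' Tk') :
    CoeffCompat A (T.comp T') (TA.comp TA') (Tk.comp Tk') where
  incl g := by
    rw [RingHom.comp_apply, RingHom.comp_apply, h.incl, h'.incl]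
  red g := by
    rw [RingHom.comp_apply, RingHom.comp_apply, h.red, h'.red]
  const c := by
    obtain ⟨c', hc'⟩ := h'.const c
    obtain ⟨c'', hc''⟩ := h.const c'
    exact ⟨c'', by rw [RingHom.comp_apply, hc', hc'']⟩

theorem qExpand_C {R : Type*} [CommRing R] (n : ℕ) [NeZero n] (c : R) :
    qExpand R n (HahnSeries.C c) = HahnSeries.C c := by
  ext k
  by_cases hk : (n : ℤ) ∣ k
  · obtain ⟨m, rfl⟩ := hk
    rw [qExpand_coeff_mul, HahnSeries.C_apply, HahnSeries.coeff_single, HahnSeries.coeff_single]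
    have hn : (n : ℤ) ≠ 0 := Int.natCast_ne_zero.2 (NeZero.ne n)
    by_cases hm : m = 0
    · rw [if_pos hm, if_pos (by rw [hm, mul_zero])]
    · rw [if_neg hm, if_neg (mul_ne_zero hn hm)]
  · rw [qExpand_coeff_of_not_dvd n _ hk, HahnSeries.C_apply, HahnSeries.coeff_single_of_ne]
    rintro rfl
    exact hk (dvd_zero _)

/-- `t ↦ t^n` -/
theorem compat_qExpand (n : ℕ) [NeZero n] :
    CoeffCompat A (qExpand L n) (qExpand A n) (qExpand (ResidueField A) n) where
  incl g := mapLS_qExpand A.subtype n g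
  red g := mapLS_qExpand (residue A) n g
  const c := ⟨c, qExpand_C n c⟩

/-- the image of a unit of `A` in `L` -/
def unitL (ζ : Aˣ) : Lˣ := Units.map (A.subtype : A →* L) ζ

/-- the image of a unit of `A` in the residue field -/
def unitK (ζ : Aˣ) : (ResidueField A)ˣ := Units.map (residue A : A →* ResidueField A) ζ

@[simp] theorem coe_unitL (ζ : Aˣ) : ((unitL A ζ : Lˣ) : L) = ((ζ : A) : L) := rfl

@[simp] theorem coe_unitK (ζ : Aˣ) :
    ((unitK A ζ : (ResidueField A)ˣ) : ResidueField A) = residue A (ζ : A) := rfl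

/-- `t ↦ ζ t`, `ζ` a unit of `A` -/
theorem compat_twist (ζ : Aˣ) :
    CoeffCompat A (twist (unitL A ζ)) (twist ζ) (twist (unitK A ζ)) where
  incl g := mapLS_twist A.subtype ζ g
  red g := mapLS_twist (residue A) ζ g
  const c := ⟨c, twist_C _ c⟩

/-- the substitution `t ↦ ζ t^m` on Laurent series -/
def substLS {R : Type*} [CommRing R] (ζ : Rˣ) (m : ℕ) [NeZero m] :
    LaurentSeries R →+* LaurentSeries R :=
  (qExpand R m).comp (twist ζ)

theorem substLS_coeff_mul {R : Type*} [CommRing R] (ζ : Rˣ) (m : ℕ) [NeZero m]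
    (f : LaurentSeries R) (k : ℤ) :
    (substLS ζ m f).coeff ((m : ℤ) * k) = ((ζ ^ k : Rˣ) : R) * f.coeff k := by
  rw [substLS, RingHom.comp_apply, qExpand_coeff_mul, twist_coeff]

theorem substLS_coeff_of_not_dvd {R : Type*} [CommRing R] (ζ : Rˣ) (m : ℕ) [NeZero m]
    (f : LaurentSeries R) {k : ℤ} (hk : ¬ (m : ℤ) ∣ k) : (substLS ζ m f).coeff k = 0 := by
  rw [substLS, RingHom.comp_apply, qExpand_coeff_of_not_dvd m _ hk]

/-- `t ↦ ζ t^m` -/
theorem compat_substLS (ζ : Aˣ) (m : ℕ) [NeZero m] :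
    CoeffCompat A (substLS (unitL A ζ) m) (substLS ζ m) (substLS (unitK A ζ) m) :=
  CoeffCompat.comp A (compat_qExpand A m) (compat_twist A ζ)

/-- a root of unity of `q`-power order reduces to `1` when the residue characteristic is `q` -/
theorem unitK_eq_one_of_pow {q m : ℕ} (hq : q.Prime) (hqA : A.valuation (q : L) < 1) (ζ : Aˣ)
    (hζ : ζ ^ (q ^ m) = 1) : unitK A ζ = 1 := by
  have hq0 : ((q : ℕ) : ResidueField A) = 0 := by
    have h1 : residue A ((q : ℕ) : A) = 0 := by
      rw [residue_eq_zero_iff, A.valuation_lt_one_iff]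
      exact_mod_cast hqA
    rwa [map_natCast] at h1
  have : CharP (ResidueField A) q := (CharP.charP_iff_prime_eq_zero hq).2 hq0
  have : Fact q.Prime := ⟨hq⟩
  apply Units.ext
  rw [coe_unitK, Units.val_one]
  have h2 : (residue A (ζ : A)) ^ (q ^ m) = 1 := by
    rw [← map_pow, ← Units.val_pow_eq_pow_val, hζ, Units.val_one, map_one]
  apply iterateFrobenius_inj (ResidueField A) q m
  rw [iterateFrobenius_def, iterateFrobenius_def, h2, one_pow]

/-- `t ↦ ζ t` for `ζ` of `q`-power order: the induced map on `k((t))` is the identity -/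
theorem compat_twist_of_pow {q m : ℕ} (hq : q.Prime) (hqA : A.valuation (q : L) < 1) (ζ : Aˣ)
    (hζ : ζ ^ (q ^ m) = 1) : CoeffCompat A (twist (unitL A ζ)) (twist ζ) (RingHom.id _) := by
  have h := compat_twist A ζ
  rw [unitK_eq_one_of_pow A hq hqA ζ hζ] at h
  refine ⟨h.incl, fun g => ?_, h.const⟩
  rw [h.red, RingHom.id_apply]
  exact twist_one_unit _

/-- `t ↦ ζ t^n` for `ζ` of `q`-power order: the induced map on `k((t))` is `t ↦ t^n` -/
theorem compat_substLS_of_pow {q m : ℕ} (hq : q.Prime) (hqA : A.valuation (q : L) < 1) (ζ : Aˣ)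
    (hζ : ζ ^ (q ^ m) = 1) (n : ℕ) [NeZero n] :
    CoeffCompat A (substLS (unitL A ζ) n) (substLS ζ n) (qExpand (ResidueField A) n) := by
  have h := CoeffCompat.comp A (compat_qExpand A n) (compat_twist_of_pow A hq hqA ζ hζ)
  rwa [RingHom.comp_id] at h

end Compat

/-! ### functoriality of the Gauss place -/

section Functor

variable {L : Type*} [Field L] (A : ValuationSubring L)
variable {F : Type*} [Field F] (ι : F →+* LaurentSeries L)
variable {T : LaurentSeries L →+* LaurentSeries L} {TA : LaurentSeries A →+* LaurentSeries A}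
  {Tk : LaurentSeries (ResidueField A) →+* LaurentSeries (ResidueField A)}
  (hT : CoeffCompat A T TA Tk)

include hT in
theorem red_compat_ne_zero {h : LaurentSeries A} (hh : red A h ≠ 0) : red A (TA h) ≠ 0 := by
  rw [hT.red]
  exact fun h0 => hh (Tk.injective (h0.trans (map_zero Tk).symm))

include hT in
/-- the Gauss subring of `ι` is contained in that of `T ∘ ι` -/
theorem mem_gaussSubring_comp {x : F} (hx : x ∈ gaussSubring A ι) :
    x ∈ gaussSubring A (T.comp ι) := by
  obtain ⟨g, h, hh, e⟩ := hx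
  refine ⟨TA g, TA h, red_compat_ne_zero A hT hh, ?_⟩
  rw [RingHom.comp_apply, hT.incl, hT.incl, ← map_mul, e]

include hT in
/-- **the reduction of `T ∘ ι` is `Tk` of the reduction of `ι`** -/
theorem gaussRed_comp (x : gaussSubring A ι) :
    gaussRed A (T.comp ι) ⟨x, mem_gaussSubring_comp A ι hT x.2⟩ = Tk (gaussRed A ι x) := by
  obtain ⟨g, h, hh, e⟩ := x.2
  have e' : (T.comp ι) (x : F) * incl A (TA h) = incl A (TA g) := by
    rw [RingHom.comp_apply, hT.incl, hT.incl, ← map_mul, e]
  rw [gaussRed_eq A ι x hh e,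
    gaussRed_eq A (T.comp ι) ⟨x, mem_gaussSubring_comp A ι hT x.2⟩ (red_compat_ne_zero A hT hh) e',
    hT.red, hT.red, map_div₀]

include hT in
theorem HasGaussRatio.comp {x : F} (hx : HasGaussRatio A ι x) :
    HasGaussRatio A (T.comp ι) x := by
  obtain ⟨c, hc, g, h, hg, hh, e⟩ := hx
  obtain ⟨c', hc'⟩ := hT.const c
  have hc'0 : c' ≠ 0 := by
    rintro rfl
    rw [map_zero] at hc'
    exact C_ne_zero' hc (T.injective (hc'.trans (map_zero T).symm))
  refine ⟨c', hc'0, TA g, TA h, red_compat_ne_zero A hT hg, red_compat_ne_zero A hT hh, ?_⟩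
  rw [RingHom.comp_apply, hT.incl, hT.incl, ← map_mul, e, map_mul, hc']

include hT in
theorem hasGaussRatio_comp_all (hι : ∀ x : F, x ≠ 0 → HasGaussRatio A ι x) :
    ∀ x : F, x ≠ 0 → HasGaussRatio A (T.comp ι) x :=
  fun x hx => (hι x hx).comp A ι hT

variable (hι : ∀ x : F, x ≠ 0 → HasGaussRatio A ι x)
  (hι' : ∀ x : F, x ≠ 0 → HasGaussRatio A (T.comp ι) x)

include hT in
/-- **the Gauss valuation rings of `ι` and `T ∘ ι` coincide** -/
theorem gaussVS_comp_eq : gaussVS A (T.comp ι) hι' = gaussVS A ι hι := by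
  ext x
  constructor
  · intro hx'
    by_contra hx
    have hv : 1 < (gaussVS A ι hι).valuation x := by
      rw [← not_le, ValuationSubring.valuation_le_one_iff]
      exact hx
    have hx0 : x ≠ 0 := by
      rintro rfl
      exact hx (gaussVS A ι hι).zero_mem
    have hinv : (gaussVS A ι hι).valuation x⁻¹ < 1 := by
      rw [map_inv₀]
      exact inv_lt_one_of_one_lt₀ hv
    have hmem : x⁻¹ ∈ gaussSubring A ι :=
      ((gaussVS A ι hι).valuation_le_one_iff _).1 hinv.le
    have h0 : gaussRed A ι ⟨x⁻¹, hmem⟩ = 0 := (gaussRed_eq_zero_iff A ι hι ⟨x⁻¹, hmem⟩).2 hinv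
    have h1 := gaussRed_comp A ι hT ⟨x⁻¹, hmem⟩
    rw [h0, map_zero] at h1
    have h2 := (gaussRed_eq_zero_iff A (T.comp ι) hι' ⟨x⁻¹, _⟩).1 h1
    have h3 : (gaussVS A (T.comp ι) hι').valuation x ≤ 1 :=
      ((gaussVS A (T.comp ι) hι').valuation_le_one_iff _).2 hx'
    have h4 : (gaussVS A (T.comp ι) hι').valuation (x⁻¹ * x) < 1 := by
      rw [map_mul]
      exact mul_lt_one_of_nonneg_of_lt_one_left zero_le h2 h3
    rw [inv_mul_cancel₀ hx0, map_one] at h4
    exact lt_irrefl _ h4
  · intro hx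
    exact mem_gaussSubring_comp A ι hT hx

include hT in
theorem gaussPlace_comp_O : (gaussPlace A (T.comp ι) hι').O = (gaussPlace A ι hι).O :=
  gaussVS_comp_eq A ι hT hι hι'

include hT in
/-- the total reduction of the Gauss place of `T ∘ ι` is `Tk` of that of `ι` -/
theorem gaussPlace_comp_redF (x : F) :
    (((gaussPlace A (T.comp ι) hι').redF x : gaussResidue A (T.comp ι) hι') :
      LaurentSeries (ResidueField A)) =
      Tk (((gaussPlace A ι hι).redF x : gaussResidue A ι hι) :
        LaurentSeries (ResidueField A)) := by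
  by_cases hx : x ∈ gaussSubring A ι
  · rw [gaussPlace_redF_coe A ι hι hx,
      gaussPlace_redF_coe A (T.comp ι) hι' (mem_gaussSubring_comp A ι hT hx)]
    exact gaussRed_comp A ι hT ⟨x, hx⟩
  · have hx' : x ∉ (gaussPlace A (T.comp ι) hι').O := by
      rw [gaussPlace_comp_O A ι hT hι hι']
      exact hx
    rw [(gaussPlace A ι hι).redF_of_not_mem hx, (gaussPlace A (T.comp ι) hι').redF_of_not_mem hx']
    simp

end Functor

end Fermat.Agent.S45lib.Gauss
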