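/-
S45lib / Gauss / Attain  (helper2)  --  Project J: computing Gauss valuations.

* `exists_prim_of_attained` : a series whose coefficients are bounded by `v c`, the bound being
  attained, is `C c` times a primitive integral series;
* `pow_ratio`, `red_pow_ne_zero` : powers of Gauss presentations;
* `gaussVS_val_eq_iff`, `gaussVS_val_eq_pow_iff`, `gaussVS_val_le_pow_iff` : comparison of the Gauss
  valuations of two elements (and of powers) through the constants of their presentations;
* constants: `mem_gaussVS_of_C_iff`, `gaussPlace_redF_of_C`, `gaussVS_valuation_lt_one_of_C_iff`.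
-/
import Mathlib
import Fermat.Agent.S45lib.Gauss.Place

set_option autoImplicit false
set_option linter.unusedSectionVars false
set_option linter.unusedVariables false

noncomputable section

namespace Fermat.Agent.S45lib.Gauss

open HahnSeries IsLocalRing Fermat.Agent.S36lib.Norm

variable {L : Type*} [Field L] (A : ValuationSubring L)

/-- **the Gauss norm is attained**: `f = C c · g` with `g` primitive -/
theorem exists_prim_of_attained {f : LaurentSeries L} {c : L} (hc : c ≠ 0)
    (hle : ∀ n, A.valuation (f.coeff n) ≤ A.valuation c) {n₀ : ℤ}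
    (heq : A.valuation (f.coeff n₀) = A.valuation c) :
    ∃ g : LaurentSeries A, red A g ≠ 0 ∧ f = HahnSeries.C c * incl A g := by
  have hvc : 0 < A.valuation c := zero_lt_iff.2 ((Valuation.ne_zero_iff _).2 hc)
  set f' : LaurentSeries L := HahnSeries.C c⁻¹ * f with hf'
  have hint : IsInt A f' := by
    intro n
    rw [hf', HahnSeries.C_mul_eq_smul, HahnSeries.coeff_smul, smul_eq_mul,
      ← A.valuation_le_one_iff, map_mul, map_inv₀, inv_mul_le_iff₀ hvc, mul_one]
    exact hle n
  refine ⟨liftInt A f' hint, ?_, ?_⟩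
  · rw [red_ne_zero_iff]
    refine ⟨n₀, ?_⟩
    rw [liftInt_coeff, hf', HahnSeries.C_mul_eq_smul, HahnSeries.coeff_smul, smul_eq_mul, map_mul,
      map_inv₀, heq, inv_mul_cancel₀ hvc.ne']
  · rw [incl_liftInt, hf', ← mul_assoc, ← map_mul, mul_inv_cancel₀ hc, map_one, one_mul]

theorem red_pow_ne_zero {g : LaurentSeries A} (hg : red A g ≠ 0) (n : ℕ) : red A (g ^ n) ≠ 0 := by
  rw [map_pow]
  exact pow_ne_zero n hg

variable {F : Type*} [Field F] (ι : F →+* LaurentSeries L)

/-- powers of a Gauss presentation -/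
theorem pow_ratio {x : F} {c : L} {g h : LaurentSeries A}
    (e : ι x * incl A h = HahnSeries.C c * incl A g) (n : ℕ) :
    ι (x ^ n) * incl A (h ^ n) = HahnSeries.C (c ^ n) * incl A (g ^ n) := by
  rw [map_pow, map_pow, map_pow, map_pow, ← mul_pow, e, mul_pow]

variable (hι : ∀ x : F, x ≠ 0 → HasGaussRatio A ι x)

/-- equality of Gauss valuations through the constants -/
theorem gaussVS_val_eq_iff {x y : F} {c d : L} {g h g' h' : LaurentSeries A}
    (hg : red A g ≠ 0) (hh : red A h ≠ 0) (hg' : red A g' ≠ 0) (hh' : red A h' ≠ 0)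
    (hc : c ≠ 0) (hd : d ≠ 0)
    (e : ι x * incl A h = HahnSeries.C c * incl A g)
    (e' : ι y * incl A h' = HahnSeries.C d * incl A g') :
    (gaussVS A ι hι).valuation x = (gaussVS A ι hι).valuation y ↔
      A.valuation c = A.valuation d := by
  rw [le_antisymm_iff, le_antisymm_iff, gaussVS_val_le_iff A ι hι hg hh hg' hh' hd e e',
    gaussVS_val_le_iff A ι hι hg' hh' hg hh hc e' e]

/-- **`v(y) = v(x)^n`** through the constants -/
theorem gaussVS_val_eq_pow_iff {x y : F} {c d : L} {g h g' h' : LaurentSeries A}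
    (hg : red A g ≠ 0) (hh : red A h ≠ 0) (hg' : red A g' ≠ 0) (hh' : red A h' ≠ 0)
    (hc : c ≠ 0) (hd : d ≠ 0)
    (e : ι x * incl A h = HahnSeries.C c * incl A g)
    (e' : ι y * incl A h' = HahnSeries.C d * incl A g') (n : ℕ) :
    (gaussVS A ι hι).valuation y = (gaussVS A ι hι).valuation x ^ n ↔
      A.valuation d = A.valuation c ^ n := by
  rw [← map_pow, ← map_pow]
  exact gaussVS_val_eq_iff A ι hι hg' hh' (red_pow_ne_zero A hg n) (red_pow_ne_zero A hh n) hd
    (pow_ne_zero n hc) e' (pow_ratio A ι e n)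

/-- **`v(y) ≤ v(x)^n`** through the constants -/
theorem gaussVS_val_le_pow_iff {x y : F} {c d : L} {g h g' h' : LaurentSeries A}
    (hg : red A g ≠ 0) (hh : red A h ≠ 0) (hg' : red A g' ≠ 0) (hh' : red A h' ≠ 0)
    (hc : c ≠ 0)
    (e : ι x * incl A h = HahnSeries.C c * incl A g)
    (e' : ι y * incl A h' = HahnSeries.C d * incl A g') (n : ℕ) :
    (gaussVS A ι hι).valuation y ≤ (gaussVS A ι hι).valuation x ^ n ↔
      A.valuation d ≤ A.valuation c ^ n := by
  rw [← map_pow, ← map_pow]
  exact gaussVS_val_le_iff A ι hι hg' hh' (red_pow_ne_zero A hg n) (red_pow_ne_zero A hh n)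
    (pow_ne_zero n hc) e' (pow_ratio A ι e n)

/-! ### constants -/

theorem red_one_ne_zero : red A (1 : LaurentSeries A) ≠ 0 := by
  rw [map_one]
  exact one_ne_zero

/-- the presentation of an element mapped to a constant -/
theorem ratio_of_C {x : F} {c : L} (e : ι x = HahnSeries.C c) :
    ι x * incl A 1 = HahnSeries.C c * incl A 1 := by rw [e]

/-- an element mapped to the constant `c` is in the Gauss valuation ring iff `c ∈ A` -/
theorem mem_gaussVS_of_C_iff {x : F} {c : L} (e : ι x = HahnSeries.C c) :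
    x ∈ gaussVS A ι hι ↔ c ∈ A := by
  rw [mem_gaussVS_iff]
  exact mem_gaussSubring_iff_of_ratio A ι (red_one_ne_zero A) (red_one_ne_zero A)
    (ratio_of_C A ι e)

/-- the Gauss valuation of an element mapped to a constant -/
theorem gaussVS_valuation_lt_one_of_C_iff {x : F} {c : L} (e : ι x = HahnSeries.C c) :
    (gaussVS A ι hι).valuation x < 1 ↔ A.valuation c < 1 :=
  gaussVS_val_lt_one_iff A ι hι (red_one_ne_zero A) (red_one_ne_zero A) (ratio_of_C A ι e)

/-- the reduction of an element mapped to an integral constant -/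
theorem gaussPlace_redF_of_C {x : F} {c : L} (hc : c ∈ A) (e : ι x = HahnSeries.C c) :
    (((gaussPlace A ι hι).redF x : gaussResidue A ι hι) : LaurentSeries (ResidueField A)) =
      HahnSeries.C (residue A ⟨c, hc⟩) := by
  have e1 : ι x = incl A (HahnSeries.C ⟨c, hc⟩) := by rw [incl_C, e]
  rw [gaussPlace_redF_of_int A ι hι e1, red_C]

end Fermat.Agent.S45lib.Gauss
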