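/-
S45lib / Gauss / Basic  (helper2)  --  brick (B) of Project J

**Gauss valuation on subfields of `L((t))`, for an ARBITRARY valuation subring `A` of `L`.**

`k` := residue field of `A`.  `incl A : A((t)) →+* L((t))` and `red A : A((t)) →+* k((t))` are the
coefficientwise maps.  A series `g : A((t))` is PRIMITIVE if `red A g ≠ 0`; the Gauss lemma is the
fact that `k((t))` is a domain.

For a field `F` and `ι : F →+* L((t))`:

* `gaussSubring A ι : Subring F` : the `x` with `ι x = incl g / incl h`, `h` primitive;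
* `gaussRed A ι : gaussSubring A ι →+* k((t))`, `x ↦ red g / red h`;
* `HasGaussRatio A ι x` : `ι x = c · incl g / incl h` with `g, h` primitive, `c ≠ 0`;
* under `hι : ∀ x ≠ 0, HasGaussRatio A ι x` : the valuation subring `gaussVS A ι hι`, the kernel of
  the reduction is the maximal ideal, and the value calculus `gaussVS_val_le_iff`.

Mathlib only.
-/
import Mathlib

set_option autoImplicit false

noncomputable section

namespace Fermat.Agent.S45lib.Gauss

open HahnSeries IsLocalRing

/-! ### coefficientwise maps of Laurent series -/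

section MapRingHom

variable {R S : Type*} [Semiring R] [Semiring S]

/-- the coefficientwise map of Laurent series attached to a ring homomorphism -/
def mapLS (φ : R →+* S) : LaurentSeries R →+* LaurentSeries S where
  toFun f := f.map φ
  map_zero' := by
    ext n
    simp
  map_one' := by
    ext n
    simp only [HahnSeries.map_coeff, HahnSeries.coeff_one]
    split_ifs <;> simp
  map_add' f g := by
    ext n
    simp
  map_mul' f g := HahnSeries.map_mul (φ : R →ₙ+* S)

@[simp] theorem mapLS_coeff (φ : R →+* S) (f : LaurentSeries R) (n : ℤ) :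
    (mapLS φ f).coeff n = φ (f.coeff n) := rfl

theorem mapLS_injective (φ : R →+* S) (hφ : Function.Injective φ) :
    Function.Injective (mapLS φ) := by
  intro f g h
  ext n
  apply hφ
  rw [← mapLS_coeff, ← mapLS_coeff, h]

theorem mapLS_C (φ : R →+* S) (a : R) :
    mapLS φ (HahnSeries.C a) = HahnSeries.C (φ a) :=
  HahnSeries.map_C a φ

end MapRingHom

/-! ### the two maps `A((t)) → L((t))`, `A((t)) → k((t))` -/

section Gauss

variable {L : Type*} [Field L] (A : ValuationSubring L)

/-- the inclusion `A((t)) → L((t))` -/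
def incl : LaurentSeries A →+* LaurentSeries L := mapLS A.subtype

/-- the coefficientwise reduction `A((t)) → k((t))` -/
def red : LaurentSeries A →+* LaurentSeries (ResidueField A) := mapLS (residue A)

@[simp] theorem incl_coeff (g : LaurentSeries A) (n : ℤ) : (incl A g).coeff n = (g.coeff n : L) :=
  rfl

@[simp] theorem red_coeff (g : LaurentSeries A) (n : ℤ) :
    (red A g).coeff n = residue A (g.coeff n) := rfl

theorem incl_injective : Function.Injective (incl A) :=
  mapLS_injective _ Subtype.val_injective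

theorem incl_C (a : A) : incl A (HahnSeries.C a) = HahnSeries.C (a : L) :=
  mapLS_C A.subtype a

theorem red_C (a : A) : red A (HahnSeries.C a) = HahnSeries.C (residue A a) :=
  mapLS_C (residue A) a

/-- a Laurent series over `L` with coefficients in `A` -/
def IsInt (f : LaurentSeries L) : Prop := ∀ n, f.coeff n ∈ A

/-- the series over `A` with the same coefficients -/
def liftInt (f : LaurentSeries L) (hf : IsInt A f) : LaurentSeries A where
  coeff n := ⟨f.coeff n, hf n⟩
  isPWO_support' := f.isPWO_support.mono (fun n hn => by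
    simp only [Function.mem_support, ne_eq] at hn
    rw [HahnSeries.mem_support]
    intro h0
    exact hn (Subtype.ext h0))

@[simp] theorem liftInt_coeff (f : LaurentSeries L) (hf : IsInt A f) (n : ℤ) :
    ((liftInt A f hf).coeff n : L) = f.coeff n := rfl

@[simp] theorem incl_liftInt (f : LaurentSeries L) (hf : IsInt A f) :
    incl A (liftInt A f hf) = f := by
  ext n
  rfl

theorem isInt_incl (g : LaurentSeries A) : IsInt A (incl A g) := fun n => (g.coeff n).2

theorem isInt_iff (f : LaurentSeries L) : IsInt A f ↔ ∃ g, incl A g = f :=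
  ⟨fun hf => ⟨liftInt A f hf, incl_liftInt A f hf⟩, by rintro ⟨g, rfl⟩; exact isInt_incl A g⟩

/-- `red g ≠ 0` iff some coefficient is a unit -/
theorem red_ne_zero_iff (g : LaurentSeries A) :
    red A g ≠ 0 ↔ ∃ n, A.valuation (g.coeff n : L) = 1 := by
  constructor
  · intro h
    by_contra hc
    push Not at hc
    apply h
    ext n
    rw [red_coeff, HahnSeries.coeff_zero, residue_eq_zero_iff, A.valuation_lt_one_iff]
    exact lt_of_le_of_ne ((A.valuation_le_one _)) (hc n)
  · rintro ⟨n, hn⟩ h0
    have h1 : (red A g).coeff n = 0 := by rw [h0, HahnSeries.coeff_zero]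
    rw [red_coeff, residue_eq_zero_iff, A.valuation_lt_one_iff, hn] at h1
    exact lt_irrefl _ h1

/-- **the key lemma**: a constant multiple of a primitive series which is integral has an
integral constant -/
theorem mem_of_C_mul_prim {c : L} {P G : LaurentSeries A} (hP : red A P ≠ 0)
    (e : HahnSeries.C c * incl A P = incl A G) : c ∈ A := by
  by_contra hc
  have hc0 : c ≠ 0 := fun h => hc (h ▸ A.zero_mem)
  have hinv : A.valuation c⁻¹ < 1 := by
    rw [map_inv₀]
    have h1 : 1 < A.valuation c := not_le.1 (fun h => hc ((A.valuation_le_one_iff c).1 h))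
    exact inv_lt_one_of_one_lt₀ h1
  have hmem : c⁻¹ ∈ A := (A.valuation_le_one_iff _).1 hinv.le
  have e2 : incl A P = incl A (HahnSeries.C ⟨c⁻¹, hmem⟩ * G) := by
    rw [map_mul, incl_C, ← e, ← mul_assoc, ← map_mul, inv_mul_cancel₀ hc0, map_one, one_mul]
  have e3 := incl_injective A e2
  apply hP
  rw [e3, map_mul, red_C]
  have : residue A ⟨c⁻¹, hmem⟩ = 0 := by
    rw [residue_eq_zero_iff, A.valuation_lt_one_iff]
    exact hinv
  rw [this, map_zero, zero_mul]

/-! ### the Gauss subring of a field mapping to `L((t))` -/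

variable {F : Type*} [Field F] (ι : F →+* LaurentSeries L)

/-- the elements `x` with `ι x = incl g / incl h`, `h` primitive -/
def gaussSubring : Subring F where
  carrier := {x | ∃ g h : LaurentSeries A, red A h ≠ 0 ∧ ι x * incl A h = incl A g}
  mul_mem' := by
    rintro x y ⟨g, h, hh, e⟩ ⟨g', h', hh', e'⟩
    refine ⟨g * g', h * h', ?_, ?_⟩
    · rw [map_mul]
      exact mul_ne_zero hh hh'
    · rw [map_mul, map_mul, map_mul, ← e, ← e']
      ring
  one_mem' := ⟨1, 1, by rw [map_one]; exact one_ne_zero, by simp⟩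
  add_mem' := by
    rintro x y ⟨g, h, hh, e⟩ ⟨g', h', hh', e'⟩
    refine ⟨g * h' + g' * h, h * h', ?_, ?_⟩
    · rw [map_mul]
      exact mul_ne_zero hh hh'
    · rw [map_add, map_add, map_mul, map_mul, map_mul, ← e, ← e']
      ring
  zero_mem' := ⟨0, 1, by rw [map_one]; exact one_ne_zero, by simp⟩
  neg_mem' := by
    rintro x ⟨g, h, hh, e⟩
    exact ⟨-g, h, hh, by rw [map_neg, map_neg, neg_mul, e]⟩

theorem mem_gaussSubring_iff (x : F) :
    x ∈ gaussSubring A ι ↔
      ∃ g h : LaurentSeries A, red A h ≠ 0 ∧ ι x * incl A h = incl A g := Iff.rfl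

/-- elements with integral image are in the Gauss subring -/
theorem mem_gaussSubring_of_int {x : F} {g : LaurentSeries A} (e : ι x = incl A g) :
    x ∈ gaussSubring A ι :=
  ⟨g, 1, by rw [map_one]; exact one_ne_zero, by rw [map_one, mul_one, e]⟩

theorem mem_gaussSubring_of_isInt {x : F} (hx : IsInt A (ι x)) : x ∈ gaussSubring A ι :=
  mem_gaussSubring_of_int A ι (incl_liftInt A _ hx).symm

/-- independence of the presentation -/
theorem red_div_eq {x : F} {g h g' h' : LaurentSeries A} (hh : red A h ≠ 0)
    (e : ι x * incl A h = incl A g) (hh' : red A h' ≠ 0) (e' : ι x * incl A h' = incl A g') :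
    red A g / red A h = red A g' / red A h' := by
  have h1 : incl A (g * h') = incl A (g' * h) := by
    rw [map_mul, map_mul, ← e, ← e']
    ring
  have h2 := incl_injective A h1
  rw [div_eq_div_iff hh hh', ← map_mul, ← map_mul, h2]

/-- the reduction map as a function -/
def gaussRedFun (x : gaussSubring A ι) : LaurentSeries (ResidueField A) :=
  red A x.2.choose / red A x.2.choose_spec.choose

theorem gaussRedFun_eq (x : gaussSubring A ι) {g h : LaurentSeries A} (hh : red A h ≠ 0)
    (e : ι x * incl A h = incl A g) : gaussRedFun A ι x = red A g / red A h :=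
  red_div_eq A ι x.2.choose_spec.choose_spec.1 x.2.choose_spec.choose_spec.2 hh e

/-- **the reduction map** of the Gauss subring into `k((t))` -/
def gaussRed : gaussSubring A ι →+* LaurentSeries (ResidueField A) where
  toFun := gaussRedFun A ι
  map_one' := by
    rw [gaussRedFun_eq A ι 1 (g := 1) (h := 1) (by rw [map_one]; exact one_ne_zero) (by simp),
      map_one, div_one]
  map_zero' := by
    rw [gaussRedFun_eq A ι 0 (g := 0) (h := 1) (by rw [map_one]; exact one_ne_zero) (by simp),
      map_zero, zero_div]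
  map_mul' := by
    rintro ⟨x, g, h, hh, e⟩ ⟨y, g', h', hh', e'⟩
    have hm : red A (h * h') ≠ 0 := by
      rw [map_mul]
      exact mul_ne_zero hh hh'
    rw [gaussRedFun_eq A ι ⟨x, g, h, hh, e⟩ hh e, gaussRedFun_eq A ι ⟨y, g', h', hh', e'⟩ hh' e',
      gaussRedFun_eq A ι (⟨x, g, h, hh, e⟩ * ⟨y, g', h', hh', e'⟩) (g := g * g') (h := h * h') hm
        (by
          show ι (x * y) * incl A (h * h') = incl A (g * g')
          rw [map_mul, map_mul, map_mul, ← e, ← e']
          ring),
      map_mul, map_mul, div_mul_div_comm]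
  map_add' := by
    rintro ⟨x, g, h, hh, e⟩ ⟨y, g', h', hh', e'⟩
    have hm : red A (h * h') ≠ 0 := by
      rw [map_mul]
      exact mul_ne_zero hh hh'
    rw [gaussRedFun_eq A ι ⟨x, g, h, hh, e⟩ hh e, gaussRedFun_eq A ι ⟨y, g', h', hh', e'⟩ hh' e',
      gaussRedFun_eq A ι (⟨x, g, h, hh, e⟩ + ⟨y, g', h', hh', e'⟩) (g := g * h' + g' * h)
        (h := h * h') hm
        (by
          show ι (x + y) * incl A (h * h') = incl A (g * h' + g' * h)
          rw [map_add, map_add, map_mul, map_mul, map_mul, ← e, ← e']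
          ring),
      map_mul, map_add, map_mul, map_mul, div_add_div _ _ hh hh', mul_comm (red A h) (red A g')]

theorem gaussRed_eq (x : gaussSubring A ι) {g h : LaurentSeries A} (hh : red A h ≠ 0)
    (e : ι x * incl A h = incl A g) : gaussRed A ι x = red A g / red A h :=
  gaussRedFun_eq A ι x hh e

/-- on elements with integral image the reduction is coefficientwise -/
theorem gaussRed_of_int (x : gaussSubring A ι) {g : LaurentSeries A} (e : ι x = incl A g) :
    gaussRed A ι x = red A g := by
  rw [gaussRed_eq A ι x (g := g) (h := 1) (by rw [map_one]; exact one_ne_zero)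
    (by rw [map_one, mul_one, e]), map_one, div_one]

/-! ### the valuation subring -/

/-- `ι x` is, up to a nonzero constant, a quotient of two primitive series -/
def HasGaussRatio (x : F) : Prop :=
  ∃ c : L, c ≠ 0 ∧ ∃ g h : LaurentSeries A, red A g ≠ 0 ∧ red A h ≠ 0 ∧
    ι x * incl A h = HahnSeries.C c * incl A g

theorem red_ne_zero_imp_ne_zero {g : LaurentSeries A} (hg : red A g ≠ 0) : g ≠ 0 := by
  rintro rfl
  exact hg (map_zero _)

theorem incl_ne_zero {g : LaurentSeries A} (hg : g ≠ 0) : incl A g ≠ 0 := fun h =>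
  hg (incl_injective A (h.trans (map_zero _).symm))

theorem C_ne_zero' {c : L} (hc : c ≠ 0) : (HahnSeries.C c : LaurentSeries L) ≠ 0 := fun h =>
  hc (HahnSeries.C_injective (h.trans (map_zero _).symm))

theorem HasGaussRatio.ne_zero {x : F} (hx : HasGaussRatio A ι x) : x ≠ 0 := by
  rintro rfl
  obtain ⟨c, hc, g, h, hg, hh, e⟩ := hx
  rw [map_zero, zero_mul] at e
  exact mul_ne_zero (C_ne_zero' hc) (incl_ne_zero A (red_ne_zero_imp_ne_zero A hg)) e.symm

theorem HasGaussRatio.one : HasGaussRatio A ι 1 :=
  ⟨1, one_ne_zero, 1, 1, by rw [map_one]; exact one_ne_zero, by rw [map_one]; exact one_ne_zero,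
    by simp⟩

theorem HasGaussRatio.mul {x y : F} (hx : HasGaussRatio A ι x) (hy : HasGaussRatio A ι y) :
    HasGaussRatio A ι (x * y) := by
  obtain ⟨c, hc, g, h, hg, hh, e⟩ := hx
  obtain ⟨c', hc', g', h', hg', hh', e'⟩ := hy
  refine ⟨c * c', mul_ne_zero hc hc', g * g', h * h', ?_, ?_, ?_⟩
  · rw [map_mul]
    exact mul_ne_zero hg hg'
  · rw [map_mul]
    exact mul_ne_zero hh hh'
  · rw [map_mul, map_mul, map_mul, map_mul]
    calc ι x * ι y * (incl A h * incl A h') = (ι x * incl A h) * (ι y * incl A h') := by ring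
      _ = _ := by rw [e, e']; ring

/-- inverting a presentation -/
theorem inv_ratio {x : F} (hx : x ≠ 0) {c : L} (hc : c ≠ 0) {G H : LaurentSeries L}
    (e : ι x * H = HahnSeries.C c * G) : ι x⁻¹ * G = HahnSeries.C c⁻¹ * H := by
  have hιx : ι x ≠ 0 := (map_ne_zero ι).2 hx
  have hC : (HahnSeries.C c : LaurentSeries L) ≠ 0 := C_ne_zero' hc
  rw [map_inv₀, map_inv₀]
  calc (ι x)⁻¹ * G = (ι x)⁻¹ * (HahnSeries.C c)⁻¹ * (HahnSeries.C c * G) := by
        rw [mul_assoc, inv_mul_cancel_left₀ hC]
    _ = (ι x)⁻¹ * (HahnSeries.C c)⁻¹ * (ι x * H) := by rw [e]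
    _ = (HahnSeries.C c)⁻¹ * H := by
        rw [mul_comm (ι x)⁻¹, mul_assoc, inv_mul_cancel_left₀ hιx]

theorem HasGaussRatio.inv {x : F} (hx : HasGaussRatio A ι x) : HasGaussRatio A ι x⁻¹ := by
  have hx0 := hx.ne_zero
  obtain ⟨c, hc, g, h, hg, hh, e⟩ := hx
  exact ⟨c⁻¹, inv_ne_zero hc, h, g, hh, hg, inv_ratio ι hx0 hc e⟩

/-- membership of an element given as a constant times a quotient of primitive series -/
theorem mem_gaussSubring_iff_of_ratio {x : F} {c : L} {g h : LaurentSeries A}
    (hg : red A g ≠ 0) (hh : red A h ≠ 0) (e : ι x * incl A h = HahnSeries.C c * incl A g) :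
    x ∈ gaussSubring A ι ↔ c ∈ A := by
  constructor
  · rintro ⟨G, H, hH, e'⟩
    have hP : red A (g * H) ≠ 0 := by
      rw [map_mul]
      exact mul_ne_zero hg hH
    refine mem_of_C_mul_prim A hP (G := G * h) ?_
    rw [map_mul, map_mul, ← mul_assoc, ← e, ← e']
    ring
  · intro hc
    refine ⟨HahnSeries.C ⟨c, hc⟩ * g, h, hh, ?_⟩
    rw [map_mul, incl_C, e]

/-- the reduction of an element given as a constant times a quotient of primitive series -/
theorem gaussRed_of_ratio (x : gaussSubring A ι) {c : L} (hc : c ∈ A) {g h : LaurentSeries A}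
    (hh : red A h ≠ 0) (e : ι x * incl A h = HahnSeries.C c * incl A g) :
    gaussRed A ι x = HahnSeries.C (residue A ⟨c, hc⟩) * red A g / red A h := by
  rw [gaussRed_eq A ι x (g := HahnSeries.C ⟨c, hc⟩ * g) hh (by rw [map_mul, incl_C, e]), map_mul,
    red_C]

variable (hι : ∀ x : F, x ≠ 0 → HasGaussRatio A ι x)

/-- **the Gauss valuation subring** -/
def gaussVS : ValuationSubring F :=
  { gaussSubring A ι with
    mem_or_inv_mem' := by
      intro x
      rcases eq_or_ne x 0 with rfl | hx
      · exact Or.inl (gaussSubring A ι).zero_mem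
      obtain ⟨c, hc, g, h, hg, hh, e⟩ := hι x hx
      rcases A.mem_or_inv_mem c with h1 | h1
      · exact Or.inl ((mem_gaussSubring_iff_of_ratio A ι hg hh e).2 h1)
      · exact Or.inr ((mem_gaussSubring_iff_of_ratio A ι (x := x⁻¹) (c := c⁻¹) (g := h) (h := g)
          hh hg (inv_ratio ι hx hc e)).2 h1) }

theorem mem_gaussVS_iff (x : F) : x ∈ gaussVS A ι hι ↔ x ∈ gaussSubring A ι := Iff.rfl

theorem gaussVS_toSubring : (gaussVS A ι hι).toSubring = gaussSubring A ι := rfl

/-- presentation of a quotient -/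
theorem div_ratio {x y : F} {c d : L} {g h g' h' : LaurentSeries A} (hy : y ≠ 0) (hd : d ≠ 0)
    (e : ι x * incl A h = HahnSeries.C c * incl A g)
    (e' : ι y * incl A h' = HahnSeries.C d * incl A g') :
    ι (x / y) * incl A (h * g') = HahnSeries.C (c / d) * incl A (g * h') := by
  have e'' := inv_ratio ι hy hd e'
  rw [div_eq_mul_inv, map_mul, map_mul, map_mul, div_eq_mul_inv, map_mul]
  calc ι x * ι y⁻¹ * (incl A h * incl A g') = (ι x * incl A h) * (ι y⁻¹ * incl A g') := by ring
    _ = _ := by rw [e, e'']; ring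

/-- **value calculus**: the Gauss valuation of `c · g / h` (`g, h` primitive) is the valuation
of `c` -/
theorem gaussVS_val_le_iff {x y : F} {c d : L} {g h g' h' : LaurentSeries A}
    (hg : red A g ≠ 0) (hh : red A h ≠ 0) (hg' : red A g' ≠ 0) (hh' : red A h' ≠ 0) (hd : d ≠ 0)
    (e : ι x * incl A h = HahnSeries.C c * incl A g)
    (e' : ι y * incl A h' = HahnSeries.C d * incl A g') :
    (gaussVS A ι hι).valuation x ≤ (gaussVS A ι hι).valuation y ↔
      A.valuation c ≤ A.valuation d := by
  have hy : y ≠ 0 := HasGaussRatio.ne_zero A ι ⟨d, hd, g', h', hg', hh', e'⟩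
  have hvy : (gaussVS A ι hι).valuation y ≠ 0 := (Valuation.ne_zero_iff _).2 hy
  have hvd : A.valuation d ≠ 0 := (Valuation.ne_zero_iff _).2 hd
  have h1 : (gaussVS A ι hι).valuation x ≤ (gaussVS A ι hι).valuation y ↔
      x / y ∈ gaussVS A ι hι := by
    rw [← ValuationSubring.valuation_le_one_iff, map_div₀, div_le_one₀ (zero_lt_iff.2 hvy)]
  have h2 : A.valuation c ≤ A.valuation d ↔ c / d ∈ A := by
    rw [← ValuationSubring.valuation_le_one_iff, map_div₀, div_le_one₀ (zero_lt_iff.2 hvd)]
  rw [h1, h2, mem_gaussVS_iff]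
  refine mem_gaussSubring_iff_of_ratio A ι (g := g * h') (h := h * g') ?_ ?_
    (div_ratio A ι hy hd e e')
  · rw [map_mul]
    exact mul_ne_zero hg hh'
  · rw [map_mul]
    exact mul_ne_zero hh hg'

theorem gaussVS_val_lt_iff {x y : F} {c d : L} {g h g' h' : LaurentSeries A}
    (hg : red A g ≠ 0) (hh : red A h ≠ 0) (hg' : red A g' ≠ 0) (hh' : red A h' ≠ 0) (hd : d ≠ 0)
    (e : ι x * incl A h = HahnSeries.C c * incl A g)
    (e' : ι y * incl A h' = HahnSeries.C d * incl A g') :
    (gaussVS A ι hι).valuation y < (gaussVS A ι hι).valuation x ↔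
      A.valuation d < A.valuation c := by
  rw [← not_le, ← not_le, gaussVS_val_le_iff A ι hι hg hh hg' hh' hd e e']

/-- comparison with `1` -/
theorem gaussVS_val_lt_one_iff {x : F} {c : L} {g h : LaurentSeries A}
    (hg : red A g ≠ 0) (hh : red A h ≠ 0)
    (e : ι x * incl A h = HahnSeries.C c * incl A g) :
    (gaussVS A ι hι).valuation x < 1 ↔ A.valuation c < 1 := by
  rcases eq_or_ne c 0 with rfl | hc
  · have hx : x = 0 := by
      rw [map_zero, zero_mul] at e
      have h0 : incl A h ≠ 0 := incl_ne_zero A (red_ne_zero_imp_ne_zero A hh)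
      have := (mul_eq_zero.1 e).resolve_right h0
      exact (map_eq_zero ι).1 this
    rw [hx, map_zero, map_zero]
    exact ⟨fun _ => zero_lt_one, fun _ => zero_lt_one⟩
  have h1 : red A (1 : LaurentSeries A) ≠ 0 := by
    rw [map_one]
    exact one_ne_zero
  have := gaussVS_val_lt_iff A ι hι (x := 1) (y := x) (c := 1) (d := c) (g := 1) (h := 1) h1 h1
    hg hh hc (by simp) e
  rwa [map_one, map_one] at this

/-- **the kernel of the reduction is the maximal ideal** -/
theorem gaussRed_eq_zero_iff (x : gaussSubring A ι) :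
    gaussRed A ι x = 0 ↔ (gaussVS A ι hι).valuation (x : F) < 1 := by
  rcases eq_or_ne (x : F) 0 with hx | hx
  · have : x = 0 := Subtype.ext hx
    rw [this, map_zero]
    simp
  obtain ⟨c, hc, g, h, hg, hh, e⟩ := hι x hx
  have hcA : c ∈ A := (mem_gaussSubring_iff_of_ratio A ι hg hh e).1 x.2
  rw [gaussVS_val_lt_one_iff A ι hι hg hh e, gaussRed_of_ratio A ι x hcA hh e, div_eq_zero_iff,
    mul_eq_zero]
  constructor
  · rintro ((h1 | h1) | h1)
    · have h2 : residue A ⟨c, hcA⟩ = 0 := HahnSeries.C_injective (h1.trans (map_zero _).symm)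
      rw [residue_eq_zero_iff, A.valuation_lt_one_iff] at h2
      exact h2
    · exact absurd h1 hg
    · exact absurd h1 hh
  · intro h1
    left
    left
    have h2 : residue A ⟨c, hcA⟩ = 0 := by
      rw [residue_eq_zero_iff, A.valuation_lt_one_iff]
      exact h1
    rw [h2, map_zero]

/-- the reduction as a map on the valuation subring -/
def gaussRedVS : gaussVS A ι hι →+* LaurentSeries (ResidueField A) := gaussRed A ι

theorem gaussRedVS_apply (x : gaussVS A ι hι) : gaussRedVS A ι hι x = gaussRed A ι x := rfl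

theorem ker_gaussRedVS :
    RingHom.ker (gaussRedVS A ι hι) = IsLocalRing.maximalIdeal (gaussVS A ι hι) := by
  ext x
  rw [RingHom.mem_ker, gaussRedVS_apply, gaussRed_eq_zero_iff A ι hι,
    ValuationSubring.valuation_lt_one_iff]

end Gauss

end Fermat.Agent.S45lib.Gauss
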