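/-
S45lib / Gauss / Discrete  (helper2)  --  brick (B) of Project J, second file

**Supplying the hypothesis `HasGaussRatio`** of `Gauss/Basic` from DISCRETENESS of the coefficients.

* `IsDiscAt A π g` : the nonzero coefficients of `g : A((t))` have valuations in `v(π)^ℤ`;
* `exists_prim_of_discrete` : such a `g ≠ 0` is `π^m` times a primitive series;
* `hasGaussRatio_of_discrete` : `ι x = incl g / incl h` with `g, h` discrete gives
  `HasGaussRatio A ι x`;
* `ratSubring L₀` : the Laurent series with coefficients in a subfield `L₀`; `ratioSubfield A ι L₀` :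
  the subfield of `F` of the `x` with `ι x = incl g / incl h`, `g, h` integral with coefficients in
  `L₀`; if `v(L₀ˣ) ⊆ v(π)^ℤ` all its nonzero elements have Gauss ratios
  (`hasGaussRatio_of_mem_ratioSubfield`); it contains every `x` with bounded `L₀`-rational image
  (`mem_ratioSubfield_of_bounded`); `hasGaussRatio_of_closure` : generators suffice.

Mathlib only.
-/
import Mathlib
import Fermat.Agent.S45lib.Gauss.Basic

set_option autoImplicit false

noncomputable section

namespace Fermat.Agent.S45lib.Gauss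

open HahnSeries IsLocalRing

/-! ### series with coefficients in the range of a ring homomorphism -/

section Range

variable {R S : Type*} [Semiring R] [Semiring S]

theorem mem_range_mapLS_iff (φ : R →+* S) (f : LaurentSeries S) :
    f ∈ (mapLS φ).rangeS ↔ ∀ n, f.coeff n ∈ φ.rangeS := by
  classical
  constructor
  · rintro ⟨g, rfl⟩ n
    exact ⟨g.coeff n, rfl⟩
  · intro h
    choose r hr using h
    let g : LaurentSeries R :=
      { coeff := fun n => if f.coeff n = 0 then 0 else r n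
        isPWO_support' := f.isPWO_support.mono (fun n hn => by
          simp only [Function.mem_support, ne_eq] at hn
          rw [HahnSeries.mem_support]
          intro h0
          exact hn (by rw [if_pos h0])) }
    refine ⟨g, ?_⟩
    ext n
    rw [mapLS_coeff]
    show φ (if f.coeff n = 0 then 0 else r n) = f.coeff n
    split_ifs with h0
    · rw [map_zero, h0]
    · exact hr n

end Range

section Disc

variable {L : Type*} [Field L] (A : ValuationSubring L)

/-- the nonzero coefficients of `g` have valuations in `v(π)^ℤ` -/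
def IsDiscAt (π : L) (g : LaurentSeries A) : Prop :=
  ∀ n, g.coeff n ≠ 0 → ∃ m : ℤ, A.valuation (g.coeff n : L) = A.valuation π ^ m

theorem coeff_C_mul (c : L) (f : LaurentSeries L) (n : ℤ) :
    (HahnSeries.C c * f).coeff n = c * f.coeff n := by
  rw [HahnSeries.C_mul_eq_smul, HahnSeries.coeff_smul, smul_eq_mul]

/-- **a nonzero series with discretely valued coefficients is `π^m` times a primitive one** -/
theorem exists_prim_of_discrete {π : L} (hπ0 : π ≠ 0) (hπ : A.valuation π < 1)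
    {g : LaurentSeries A} (hg : g ≠ 0) (hd : IsDiscAt A π g) :
    ∃ (m : ℕ) (g' : LaurentSeries A), red A g' ≠ 0 ∧
      incl A g = HahnSeries.C (π ^ m) * incl A g' := by
  classical
  have hvπ0 : 0 < A.valuation π := zero_lt_iff.2 ((Valuation.ne_zero_iff _).2 hπ0)
  -- natural exponents
  have hdN : ∀ n, g.coeff n ≠ 0 → ∃ m : ℕ, A.valuation (g.coeff n : L) = A.valuation π ^ m := by
    intro n hn
    obtain ⟨m, hm⟩ := hd n hn
    have h1 : A.valuation π ^ m ≤ 1 := hm ▸ A.valuation_le_one (g.coeff n)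
    rw [zpow_le_one_iff_right_of_lt_one₀ hvπ0 hπ] at h1
    obtain ⟨k, rfl⟩ := Int.eq_ofNat_of_zero_le h1
    exact ⟨k, by rw [hm, zpow_natCast]⟩
  have hex : ∃ m : ℕ, ∃ n, g.coeff n ≠ 0 ∧ A.valuation (g.coeff n : L) = A.valuation π ^ m := by
    obtain ⟨n, hn⟩ : ∃ n, g.coeff n ≠ 0 := by
      by_contra hc
      push Not at hc
      exact hg (HahnSeries.ext (funext fun n => hc n))
    obtain ⟨m, hm⟩ := hdN n hn
    exact ⟨m, n, hn, hm⟩
  obtain ⟨n₀, hn₀, hv₀⟩ := Nat.find_spec hex
  set m₀ := Nat.find hex with hm₀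
  have hπm : (π ^ m₀ : L) ≠ 0 := pow_ne_zero _ hπ0
  set f : LaurentSeries L := HahnSeries.C (π ^ m₀)⁻¹ * incl A g with hf
  have hfint : IsInt A f := by
    intro n
    rw [hf, coeff_C_mul, incl_coeff]
    rcases eq_or_ne (g.coeff n) 0 with h0 | h0
    · rw [h0]
      simp
    obtain ⟨m, hm⟩ := hdN n h0
    have hle : m₀ ≤ m := Nat.find_min' hex ⟨n, h0, hm⟩
    rw [← A.valuation_le_one_iff, map_mul, map_inv₀, map_pow, hm]
    rw [inv_mul_le_iff₀ (pow_pos hvπ0 _), mul_one]
    exact pow_le_pow_of_le_one hvπ0.le hπ.le hle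
  refine ⟨m₀, liftInt A f hfint, ?_, ?_⟩
  · rw [red_ne_zero_iff]
    refine ⟨n₀, ?_⟩
    rw [liftInt_coeff, hf, coeff_C_mul, incl_coeff, map_mul, map_inv₀, map_pow, hv₀,
      inv_mul_cancel₀ (pow_ne_zero _ hvπ0.ne')]
  · rw [incl_liftInt, hf, ← mul_assoc, ← map_mul, mul_inv_cancel₀ hπm, map_one, one_mul]

variable {F : Type*} [Field F] (ι : F →+* LaurentSeries L)

/-- a quotient of two series with discretely valued coefficients has a Gauss ratio -/
theorem hasGaussRatio_of_discrete {π : L} (hπ0 : π ≠ 0) (hπ : A.valuation π < 1) {x : F}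
    (hx : x ≠ 0) {g h : LaurentSeries A} (hh : h ≠ 0) (hgd : IsDiscAt A π g)
    (hhd : IsDiscAt A π h) (e : ι x * incl A h = incl A g) : HasGaussRatio A ι x := by
  have hιx : ι x ≠ 0 := (map_ne_zero ι).2 hx
  have hg : g ≠ 0 := by
    rintro rfl
    rw [map_zero] at e
    exact mul_ne_zero hιx (incl_ne_zero A hh) e
  obtain ⟨m, g₁, hg₁, eg⟩ := exists_prim_of_discrete A hπ0 hπ hg hgd
  obtain ⟨m', h₁, hh₁, eh⟩ := exists_prim_of_discrete A hπ0 hπ hh hhd
  have hπm' : (HahnSeries.C (π ^ m') : LaurentSeries L) ≠ 0 := C_ne_zero' (pow_ne_zero _ hπ0)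
  refine ⟨π ^ m / π ^ m', div_ne_zero (pow_ne_zero _ hπ0) (pow_ne_zero _ hπ0), g₁, h₁, hg₁, hh₁,
    ?_⟩
  rw [eh, eg] at e
  rw [map_div₀, div_mul_eq_mul_div, eq_div_iff hπm', ← e]
  ring

end Disc

/-! ### coefficients in a discretely valued subfield -/

section Rat

variable {L : Type*} [Field L] (A : ValuationSubring L)
variable {F : Type*} [Field F] (ι : F →+* LaurentSeries L) (L₀ : Subfield L)

/-- the Laurent series with coefficients in the subfield `L₀` -/
def ratSubring : Subring (LaurentSeries L) := (mapLS L₀.subtype).range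

theorem mem_ratSubring_iff (f : LaurentSeries L) : f ∈ ratSubring L₀ ↔ ∀ n, f.coeff n ∈ L₀ := by
  have h1 : f ∈ ratSubring L₀ ↔ f ∈ (mapLS L₀.subtype).rangeS := Iff.rfl
  rw [h1, mem_range_mapLS_iff]
  refine forall_congr' fun n => ?_
  constructor
  · rintro ⟨y, hy⟩
    rw [← hy]
    exact y.2
  · intro h
    exact ⟨⟨_, h⟩, rfl⟩

theorem C_mem_ratSubring {c : L} (hc : c ∈ L₀) : (HahnSeries.C c : LaurentSeries L) ∈ ratSubring L₀ :=
  ⟨HahnSeries.C ⟨c, hc⟩, mapLS_C _ _⟩

/-- the elements of `F` whose image is a quotient of two integral series with coefficients in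
`L₀` -/
def ratioSubfield : Subfield F where
  carrier := {x | ∃ g h : LaurentSeries A, h ≠ 0 ∧ incl A g ∈ ratSubring L₀ ∧
    incl A h ∈ ratSubring L₀ ∧ ι x * incl A h = incl A g}
  mul_mem' := by
    rintro x y ⟨g, h, hh, hg0, hh0, e⟩ ⟨g', h', hh', hg0', hh0', e'⟩
    refine ⟨g * g', h * h', mul_ne_zero hh hh', ?_, ?_, ?_⟩
    · rw [map_mul]
      exact (ratSubring L₀).mul_mem hg0 hg0'
    · rw [map_mul]
      exact (ratSubring L₀).mul_mem hh0 hh0'
    · rw [map_mul, map_mul, map_mul, ← e, ← e']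
      ring
  one_mem' := ⟨1, 1, one_ne_zero, by rw [map_one]; exact (ratSubring L₀).one_mem,
    by rw [map_one]; exact (ratSubring L₀).one_mem, by simp⟩
  add_mem' := by
    rintro x y ⟨g, h, hh, hg0, hh0, e⟩ ⟨g', h', hh', hg0', hh0', e'⟩
    refine ⟨g * h' + g' * h, h * h', mul_ne_zero hh hh', ?_, ?_, ?_⟩
    · rw [map_add, map_mul, map_mul]
      exact (ratSubring L₀).add_mem ((ratSubring L₀).mul_mem hg0 hh0')
        ((ratSubring L₀).mul_mem hg0' hh0)
    · rw [map_mul]
      exact (ratSubring L₀).mul_mem hh0 hh0'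
    · rw [map_add, map_add, map_mul, map_mul, map_mul, ← e, ← e']
      ring
  zero_mem' := ⟨0, 1, one_ne_zero, by rw [map_zero]; exact (ratSubring L₀).zero_mem,
    by rw [map_one]; exact (ratSubring L₀).one_mem, by simp⟩
  neg_mem' := by
    rintro x ⟨g, h, hh, hg0, hh0, e⟩
    exact ⟨-g, h, hh, by rw [map_neg]; exact (ratSubring L₀).neg_mem hg0, hh0,
      by rw [map_neg, map_neg, neg_mul, e]⟩
  inv_mem' := by
    rintro x ⟨g, h, hh, hg0, hh0, e⟩
    rcases eq_or_ne x 0 with rfl | hx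
    · rw [inv_zero]
      exact ⟨0, 1, one_ne_zero, by rw [map_zero]; exact (ratSubring L₀).zero_mem,
        by rw [map_one]; exact (ratSubring L₀).one_mem, by simp⟩
    have hιx : ι x ≠ 0 := (map_ne_zero ι).2 hx
    have hg : g ≠ 0 := by
      rintro rfl
      rw [map_zero] at e
      exact mul_ne_zero hιx (incl_ne_zero A hh) e
    refine ⟨h, g, hg, hh0, hg0, ?_⟩
    rw [map_inv₀, ← e, ← mul_assoc, inv_mul_cancel₀ hιx, one_mul]

theorem mem_ratioSubfield_iff (x : F) :
    x ∈ ratioSubfield A ι L₀ ↔ ∃ g h : LaurentSeries A, h ≠ 0 ∧ incl A g ∈ ratSubring L₀ ∧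
      incl A h ∈ ratSubring L₀ ∧ ι x * incl A h = incl A g := Iff.rfl

/-- **elements of the ratio subfield have Gauss ratios** when `L₀` is discretely valued -/
theorem hasGaussRatio_of_mem_ratioSubfield {π : L} (hπ0 : π ≠ 0) (hπ : A.valuation π < 1)
    (hL₀ : ∀ c ∈ L₀, c ≠ 0 → ∃ m : ℤ, A.valuation c = A.valuation π ^ m) {x : F} (hx0 : x ≠ 0)
    (hx : x ∈ ratioSubfield A ι L₀) : HasGaussRatio A ι x := by
  obtain ⟨g, h, hh, hg0, hh0, e⟩ := hx
  have hdisc : ∀ f : LaurentSeries A, incl A f ∈ ratSubring L₀ → IsDiscAt A π f := by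
    intro f hf n hn
    have h1 := (mem_ratSubring_iff L₀ _).1 hf n
    rw [incl_coeff] at h1
    exact hL₀ _ h1 (fun h0 => hn (Subtype.ext h0))
  exact hasGaussRatio_of_discrete A ι hπ0 hπ hx0 hh (hdisc g hg0) (hdisc h hh0) e

/-- elements with bounded `L₀`-rational image are in the ratio subfield -/
theorem mem_ratioSubfield_of_bounded {x : F} (hrat : ∀ n, (ι x).coeff n ∈ L₀) {d : L}
    (hd : d ∈ L₀) (hd1 : 1 ≤ A.valuation d)
    (hb : ∀ n, A.valuation ((ι x).coeff n) ≤ A.valuation d) : x ∈ ratioSubfield A ι L₀ := by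
  have hvd : 0 < A.valuation d := lt_of_lt_of_le zero_lt_one hd1
  have hd0 : d ≠ 0 := (Valuation.ne_zero_iff _).1 hvd.ne'
  have hdA : d⁻¹ ∈ A := by
    rw [← A.valuation_le_one_iff, map_inv₀]
    exact inv_le_one_of_one_le₀ hd1
  have hint : IsInt A (HahnSeries.C d⁻¹ * ι x) := by
    intro n
    rw [coeff_C_mul, ← A.valuation_le_one_iff, map_mul, map_inv₀, inv_mul_le_iff₀ hvd, mul_one]
    exact hb n
  refine ⟨liftInt A _ hint, HahnSeries.C ⟨d⁻¹, hdA⟩, ?_, ?_, ?_, ?_⟩
  · intro h0
    have h1 : (⟨d⁻¹, hdA⟩ : A) = 0 := HahnSeries.C_injective (h0.trans (map_zero _).symm)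
    exact inv_ne_zero hd0 (congrArg Subtype.val h1)
  · rw [incl_liftInt, mem_ratSubring_iff]
    intro n
    rw [coeff_C_mul]
    exact L₀.mul_mem (L₀.inv_mem hd) (hrat n)
  · rw [incl_C]
    exact C_mem_ratSubring L₀ (L₀.inv_mem hd)
  · rw [incl_liftInt, incl_C, mul_comm]

/-- elements with integral `L₀`-rational image are in the ratio subfield -/
theorem mem_ratioSubfield_of_int {x : F} (hrat : ∀ n, (ι x).coeff n ∈ L₀) (hint : IsInt A (ι x)) :
    x ∈ ratioSubfield A ι L₀ :=
  mem_ratioSubfield_of_bounded A ι L₀ hrat L₀.one_mem (by rw [map_one]) (fun n => by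
    rw [map_one]
    exact (A.valuation_le_one_iff _).2 (hint n))

/-- **generators suffice** -/
theorem hasGaussRatio_of_closure {π : L} (hπ0 : π ≠ 0) (hπ : A.valuation π < 1)
    (hL₀ : ∀ c ∈ L₀, c ≠ 0 → ∃ m : ℤ, A.valuation c = A.valuation π ^ m) (S : Set F)
    (hS : Subfield.closure S = ⊤) (hSm : ∀ x ∈ S, x ∈ ratioSubfield A ι L₀) :
    ∀ x : F, x ≠ 0 → HasGaussRatio A ι x := by
  intro x hx
  refine hasGaussRatio_of_mem_ratioSubfield A ι L₀ hπ0 hπ hL₀ hx ?_
  have h1 : Subfield.closure S ≤ ratioSubfield A ι L₀ := Subfield.closure_le.2 hSm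
  exact h1 (hS ▸ Subfield.mem_top x)

end Rat

end Fermat.Agent.S45lib.Gauss
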