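/-
S45lib / Gauss / Cyclo  (helper2)  --  brick (B) of Project J, the cyclotomic facts

For a valuation subring `A` of a field `L` and primitive `n`-th roots of unity `ζ, μ ∈ L`:

* `valuation_root_eq_one` : `v ζ = 1`;
* `valuation_one_sub_eq` : `v (1 - μ) = v (1 - ζ)`;
* `valuation_one_sub_pow_coprime` : `v (1 - ζ ^ β) = v (1 - ζ)` for `β` prime to `n`;
* **`valuation_one_sub_pow_totient`** : for `n = q ^ m`, `q` prime, `0 < m`:
  `v (1 - ζ) ^ φ (q ^ m) = v q`;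
* `valuation_one_sub_lt_one` : if moreover `v q < 1` then `v (1 - ζ) < 1`.

Mathlib only.
-/
import Mathlib

set_option autoImplicit false

noncomputable section

namespace Fermat.Agent.S45lib.Gauss

open Polynomial

variable {L : Type*} [Field L] (A : ValuationSubring L)

/-- a root of unity has valuation one -/
theorem valuation_root_eq_one {n : ℕ} (hn : n ≠ 0) {ζ : L} (hζ : ζ ^ n = 1) :
    A.valuation ζ = 1 := by
  have h1 : A.valuation ζ ^ n = 1 := by rw [← map_pow, hζ, map_one]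
  rcases lt_trichotomy (A.valuation ζ) 1 with h | h | h
  · exact absurd h1 (ne_of_lt (pow_lt_one₀ zero_le h hn))
  · exact h
  · exact absurd h1 (ne_of_gt (one_lt_pow₀ h hn))

theorem root_mem {n : ℕ} (hn : n ≠ 0) {ζ : L} (hζ : ζ ^ n = 1) : ζ ∈ A :=
  (A.valuation_le_one_iff ζ).1 (valuation_root_eq_one A hn hζ).le

/-- `v (1 - ζ ^ i) ≤ v (1 - ζ)` for a root of unity `ζ` -/
theorem valuation_one_sub_pow_le {n : ℕ} (hn : n ≠ 0) {ζ : L} (hζ : ζ ^ n = 1) (i : ℕ) :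
    A.valuation (1 - ζ ^ i) ≤ A.valuation (1 - ζ) := by
  have h1 : (1 - ζ) * ∑ j ∈ Finset.range i, ζ ^ j = 1 - ζ ^ i := mul_neg_geom_sum ζ i
  have h2 : ∑ j ∈ Finset.range i, ζ ^ j ∈ A :=
    A.toSubring.sum_mem fun j _ => A.toSubring.pow_mem (root_mem A hn hζ) j
  rw [← h1, map_mul]
  exact mul_le_of_le_one_right' ((A.valuation_le_one_iff _).2 h2)

/-- all primitive `n`-th roots of unity have the same `v (1 - ·)` -/
theorem valuation_one_sub_eq {n : ℕ} (hn : n ≠ 0) {ζ μ : L} (hζ : IsPrimitiveRoot ζ n)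
    (hμ : IsPrimitiveRoot μ n) : A.valuation (1 - μ) = A.valuation (1 - ζ) := by
  have : NeZero n := ⟨hn⟩
  obtain ⟨i, _, hi⟩ := hζ.eq_pow_of_pow_eq_one hμ.pow_eq_one
  obtain ⟨j, _, hj⟩ := hμ.eq_pow_of_pow_eq_one hζ.pow_eq_one
  refine le_antisymm ?_ ?_
  · rw [← hi]
    exact valuation_one_sub_pow_le A hn hζ.pow_eq_one i
  · rw [← hj]
    exact valuation_one_sub_pow_le A hn hμ.pow_eq_one j

theorem valuation_one_sub_pow_coprime {n : ℕ} (hn : n ≠ 0) {ζ : L} (hζ : IsPrimitiveRoot ζ n)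
    {β : ℕ} (hβ : β.Coprime n) : A.valuation (1 - ζ ^ β) = A.valuation (1 - ζ) :=
  valuation_one_sub_eq A hn hζ (hζ.pow_of_coprime β hβ)

/-- **`v (1 - ζ) ^ φ (q ^ m) = v q`** for a primitive `q ^ m`-th root of unity -/
theorem valuation_one_sub_pow_totient {q m : ℕ} (hq : q.Prime) (hm : 0 < m) {ζ : L}
    (hζ : IsPrimitiveRoot ζ (q ^ m)) :
    A.valuation (1 - ζ) ^ Nat.totient (q ^ m) = A.valuation (q : L) := by
  have : Fact q.Prime := ⟨hq⟩
  have hn : q ^ m ≠ 0 := pow_ne_zero _ hq.ne_zero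
  obtain ⟨k, rfl⟩ : ∃ k, m = k + 1 := ⟨m - 1, by omega⟩
  have h1 : eval 1 (cyclotomic (q ^ (k + 1)) L) = (q : L) := eval_one_cyclotomic_prime_pow k
  rw [cyclotomic_eq_prod_X_sub_primitiveRoots hζ, eval_prod] at h1
  simp only [eval_sub, eval_X, eval_C] at h1
  rw [← h1, map_prod, ← hζ.card_primitiveRoots]
  rw [Finset.prod_congr rfl (fun μ hμ =>
    valuation_one_sub_eq A hn hζ ((mem_primitiveRoots (Nat.pos_of_ne_zero hn)).1 hμ)),
    Finset.prod_const]

theorem valuation_one_sub_lt_one {q m : ℕ} (hq : q.Prime) (hm : 0 < m) {ζ : L}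
    (hζ : IsPrimitiveRoot ζ (q ^ m)) (hqA : A.valuation (q : L) < 1) :
    A.valuation (1 - ζ) < 1 := by
  by_contra h
  rw [not_lt] at h
  have h1 := one_le_pow₀ h (n := Nat.totient (q ^ m))
  rw [valuation_one_sub_pow_totient A hq hm hζ] at h1
  exact not_lt.2 h1 hqA

theorem one_sub_ne_zero {q m : ℕ} (hq : q.Prime) (hm : 0 < m) {ζ : L}
    (hζ : IsPrimitiveRoot ζ (q ^ m)) : 1 - ζ ≠ 0 := by
  intro h
  have h1 : ζ = 1 := (sub_eq_zero.1 h).symm
  have h2 := hζ.unique (h1 ▸ IsPrimitiveRoot.one)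
  have h3 : 1 < q ^ m := Nat.one_lt_pow hm.ne' hq.one_lt
  omega

end Fermat.Agent.S45lib.Gauss
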