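/-
S45lib / Gauss / TotRam  (helper2)  --  brick (B) of Project J: value groups of totally ramified
simple extensions

`A` a valuation subring of `L`, `K` a subfield whose value group is `v(ϖ₀)^ℤ` (`ϖ₀ ∈ K`,
`v ϖ₀ < 1`), `π ∈ L` with `v(π)^e = v(ϖ₀)` and algebraic over `K` of degree `≤ e`.  Then

* `valuation_sum_range_eq` : a nonzero sum `∑_{i<e} a_i π^i`, `a_i ∈ K`, is nonzero and has
  valuation in `v(π)^ℤ`;
* **`valuation_mem_zpowers_of_mem_adjoin`** : the value group of `K(π)` is `v(π)^ℤ`;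
* `valuation_mem_zpowers_of_mem_adjoin_root` : the cyclotomic instance `π = 1 - ζ`, `ζ` primitive
  of order `q^m`, `ϖ₀ = q`: the value group of `K(ζ)` is `v(1-ζ)^ℤ`.

Mathlib only.
-/
import Mathlib
import Fermat.Agent.S45lib.Gauss.Cyclo

set_option autoImplicit false

noncomputable section

namespace Fermat.Agent.S45lib.Gauss

open Polynomial IntermediateField

/-! ### sums of elements with pairwise different valuations -/

section Sum

variable {L : Type*} [Field L] {Γ : Type*} [LinearOrderedCommGroupWithZero Γ]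
  (v : Valuation L Γ)

/-- a finite sum of elements whose nonzero terms have pairwise different valuations has the
valuation of its dominant term -/
theorem exists_valuation_sum_eq {ι' : Type*} [DecidableEq ι'] (s : Finset ι') (f : ι' → L)
    (hne : ∀ i ∈ s, ∀ j ∈ s, i ≠ j → f i ≠ 0 → f j ≠ 0 → v (f i) ≠ v (f j))
    (hex : ∃ i ∈ s, f i ≠ 0) :
    ∃ i ∈ s, f i ≠ 0 ∧ v (∑ j ∈ s, f j) = v (f i) ∧ ∀ j ∈ s, v (f j) ≤ v (f i) := by
  induction s using Finset.induction_on with
  | empty =>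
    obtain ⟨i, hi, _⟩ := hex
    exact absurd hi (Finset.notMem_empty i)
  | insert k s hk ih =>
    have hne' : ∀ i ∈ s, ∀ j ∈ s, i ≠ j → f i ≠ 0 → f j ≠ 0 → v (f i) ≠ v (f j) :=
      fun i hi j hj => hne i (Finset.mem_insert_of_mem hi) j (Finset.mem_insert_of_mem hj)
    rw [Finset.sum_insert hk]
    by_cases hs : ∃ i ∈ s, f i ≠ 0
    · obtain ⟨i, hi, hfi, hsum, hmax⟩ := ih hne' hs
      rcases eq_or_ne (f k) 0 with hk0 | hk0
      · refine ⟨i, Finset.mem_insert_of_mem hi, hfi, by rw [hk0, zero_add, hsum], ?_⟩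
        intro j hj
        rcases Finset.mem_insert.1 hj with rfl | hj
        · rw [hk0, map_zero]
          exact zero_le
        · exact hmax j hj
      have hki : k ≠ i := fun h => hk (h ▸ hi)
      have hvne : v (f k) ≠ v (f i) :=
        hne k (Finset.mem_insert_self k s) i (Finset.mem_insert_of_mem hi) hki hk0 hfi
      rcases lt_or_gt_of_ne hvne with hlt | hgt
      · refine ⟨i, Finset.mem_insert_of_mem hi, hfi, ?_, ?_⟩
        · rw [← hsum] at hlt ⊢
          rw [add_comm]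
          exact Valuation.map_add_eq_of_lt_left v hlt
        · intro j hj
          rcases Finset.mem_insert.1 hj with rfl | hj
          · exact hlt.le
          · exact hmax j hj
      · refine ⟨k, Finset.mem_insert_self k s, hk0, ?_, ?_⟩
        · rw [← hsum] at hgt
          rw [add_comm]
          exact Valuation.map_add_eq_of_lt_right v hgt
        · intro j hj
          rcases Finset.mem_insert.1 hj with rfl | hj
          · exact le_rfl
          · exact (hmax j hj).trans hgt.le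
    · push Not at hs
      obtain ⟨i, hi, hfi⟩ := hex
      have hik : i = k := by
        rcases Finset.mem_insert.1 hi with h | h
        · exact h
        · exact absurd (hs i h) hfi
      subst hik
      refine ⟨i, Finset.mem_insert_self i s, hfi, ?_, ?_⟩
      · rw [Finset.sum_eq_zero hs, add_zero]
      · intro j hj
        rcases Finset.mem_insert.1 hj with rfl | hj
        · exact le_rfl
        · rw [hs j hj, map_zero]
          exact zero_le

end Sum

/-! ### the value group of `K(π)` -/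

section TotRam

variable {L : Type*} [Field L] (A : ValuationSubring L) (K : Subfield L)

/-- a nonzero sum `∑_{i<e} a_i π^i` with `a_i ∈ K` is nonzero with valuation in `v(π)^ℤ` -/
theorem valuation_sum_range_eq {ϖ₀ π : L} {e : ℕ}
    (hπe : A.valuation π ^ e = A.valuation ϖ₀) (hϖ₀0 : ϖ₀ ≠ 0) (hϖ₀lt : A.valuation ϖ₀ < 1)
    (hK : ∀ c ∈ K, c ≠ 0 → ∃ n : ℤ, A.valuation c = A.valuation ϖ₀ ^ n)
    (a : ℕ → L) (haK : ∀ i, a i ∈ K) (hex : ∃ i < e, a i ≠ 0) :
    ∑ i ∈ Finset.range e, a i * π ^ i ≠ 0 ∧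
      ∃ n : ℤ, A.valuation (∑ i ∈ Finset.range e, a i * π ^ i) = A.valuation π ^ n := by
  have hvϖ : A.valuation ϖ₀ ≠ 0 := (Valuation.ne_zero_iff _).2 hϖ₀0
  have he : e ≠ 0 := by
    rintro rfl
    obtain ⟨i, hi, _⟩ := hex
    omega
  have hvπ0 : A.valuation π ≠ 0 := by
    intro h
    rw [h, zero_pow he] at hπe
    exact hvϖ hπe.symm
  have hπ0 : π ≠ 0 := (Valuation.ne_zero_iff _).1 hvπ0
  have hvπ1 : A.valuation π ≠ 1 := by
    intro h
    rw [h, one_pow] at hπe
    rw [← hπe] at hϖ₀lt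
    exact lt_irrefl _ hϖ₀lt
  -- valuations of the terms
  have hterm : ∀ i, a i ≠ 0 → ∃ n : ℤ, A.valuation (a i * π ^ i) = A.valuation π ^ ((e : ℤ) * n + i) := by
    intro i hi
    obtain ⟨n, hn⟩ := hK (a i) (haK i) hi
    refine ⟨n, ?_⟩
    rw [map_mul, map_pow, hn, ← hπe, zpow_add₀ hvπ0, zpow_mul, zpow_natCast, zpow_natCast]
  have hne : ∀ i ∈ Finset.range e, ∀ j ∈ Finset.range e, i ≠ j → a i * π ^ i ≠ 0 →
      a j * π ^ j ≠ 0 → A.valuation (a i * π ^ i) ≠ A.valuation (a j * π ^ j) := by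
    intro i hi j hj hij hfi hfj heq
    have hai : a i ≠ 0 := left_ne_zero_of_mul hfi
    have haj : a j ≠ 0 := left_ne_zero_of_mul hfj
    obtain ⟨n, hn⟩ := hterm i hai
    obtain ⟨n', hn'⟩ := hterm j haj
    rw [hn, hn'] at heq
    have h1 : A.valuation π ^ (((e : ℤ) * n + i) - ((e : ℤ) * n' + j)) = 1 := by
      rw [zpow_sub₀ hvπ0, heq, div_self (zpow_ne_zero _ hvπ0)]
    rw [zpow_eq_one_iff_right₀ zero_le hvπ1] at h1
    have hi' := Finset.mem_range.1 hi
    have hj' := Finset.mem_range.1 hj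
    have h2 : (e : ℤ) ∣ (j : ℤ) - i := ⟨n - n', by linarith⟩
    have h3 : |(j : ℤ) - i| < e := by
      rw [abs_lt]
      constructor <;> omega
    have h4 := Int.eq_zero_of_abs_lt_dvd h2 h3
    apply hij
    omega
  have hex' : ∃ i ∈ Finset.range e, a i * π ^ i ≠ 0 := by
    obtain ⟨i, hi, hai⟩ := hex
    exact ⟨i, Finset.mem_range.2 hi, mul_ne_zero hai (pow_ne_zero _ hπ0)⟩
  obtain ⟨i, hi, hfi, hsum, _⟩ :=
    exists_valuation_sum_eq A.valuation (Finset.range e) (fun i => a i * π ^ i) hne hex'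
  constructor
  · intro h0
    rw [h0, map_zero] at hsum
    exact (Valuation.ne_zero_iff _).2 hfi hsum.symm
  · obtain ⟨n, hn⟩ := hterm i (left_ne_zero_of_mul hfi)
    exact ⟨_, hsum.trans hn⟩

/-- **the value group of `K(π)` is `v(π)^ℤ`** when `v(π)^e = v(ϖ₀)` generates the value group of
`K` and `π` is algebraic over `K` of degree `≤ e` -/
theorem valuation_mem_zpowers_of_mem_adjoin {ϖ₀ π : L} {e : ℕ}
    (hπe : A.valuation π ^ e = A.valuation ϖ₀) (hϖ₀0 : ϖ₀ ≠ 0) (hϖ₀lt : A.valuation ϖ₀ < 1)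
    (hK : ∀ c ∈ K, c ≠ 0 → ∃ n : ℤ, A.valuation c = A.valuation ϖ₀ ^ n)
    (P : Polynomial K) (hP : P ≠ 0) (hPdeg : P.natDegree ≤ e) (hPπ : aeval π P = 0) :
    ∀ c ∈ K⟮π⟯, c ≠ 0 → ∃ n : ℤ, A.valuation c = A.valuation π ^ n := by
  intro c hc hc0
  have halg : IsAlgebraic K π := ⟨P, hP, hPπ⟩
  have hint : IsIntegral K π := halg.isIntegral
  have hc1 : c ∈ K⟮π⟯.toSubalgebra := hc
  rw [adjoin_simple_toSubalgebra_of_isAlgebraic halg, Algebra.adjoin_singleton_eq_range_aeval] at hc1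
  obtain ⟨p, hp⟩ := hc1
  have hp' : aeval π p = c := hp
  clear hp
  subst hp'
  set Q := minpoly K π with hQ
  have hQm : Q.Monic := minpoly.monic hint
  have hQdeg : Q.natDegree ≤ e :=
    (natDegree_le_natDegree (minpoly.degree_le_of_ne_zero K π hP hPπ)).trans hPdeg
  have hQ1 : Q ≠ 1 := by
    intro h
    have := minpoly.aeval K π
    rw [← hQ, h, map_one] at this
    exact one_ne_zero this
  set r := p %ₘ Q with hr
  have hrp : aeval π r = aeval π p := aeval_modByMonic_eq_self_of_root (minpoly.aeval K π)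
  have hrdeg : r.natDegree < e := lt_of_lt_of_le (natDegree_modByMonic_lt p hQm hQ1) hQdeg
  have hsum : aeval π p = ∑ i ∈ Finset.range e, (r.coeff i : L) * π ^ i := by
    rw [← hrp, aeval_eq_sum_range' hrdeg]
    refine Finset.sum_congr rfl fun i _ => ?_
    rw [Algebra.smul_def]
    rfl
  have hr0 : r ≠ 0 := by
    intro h
    rw [← hrp, h, map_zero] at hc0
    exact hc0 rfl
  have hex : ∃ i < e, ((r.coeff i : K) : L) ≠ 0 := by
    refine ⟨r.natDegree, hrdeg, ?_⟩
    intro h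
    have h1 : r.coeff r.natDegree = 0 := Subtype.ext h
    exact hr0 (leadingCoeff_eq_zero.1 h1)
  have := valuation_sum_range_eq A K hπe hϖ₀0 hϖ₀lt hK (fun i => ((r.coeff i : K) : L))
    (fun i => (r.coeff i).2) hex
  rw [hsum]
  exact this.2

/-- `K(ζ) = K(1 - ζ)` -/
theorem adjoin_one_sub (ζ : L) : K⟮ζ⟯ = K⟮1 - ζ⟯ := by
  apply le_antisymm
  · rw [adjoin_simple_le_iff]
    have h1 : (1 - ζ) ∈ K⟮1 - ζ⟯ := mem_adjoin_simple_self K _
    have h2 : ζ = 1 - (1 - ζ) := by ring
    have h3 : 1 - (1 - ζ) ∈ K⟮1 - ζ⟯ := sub_mem (one_mem _) h1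
    rwa [← h2] at h3
  · rw [adjoin_simple_le_iff]
    exact sub_mem (one_mem _) (mem_adjoin_simple_self K _)

/-- **the value group of `K(ζ)`, `ζ` primitive of order `q^m`, is `v(1-ζ)^ℤ`** when the value
group of `K` is `v(q)^ℤ` -/
theorem valuation_mem_zpowers_of_mem_adjoin_root {q m : ℕ} (hq : q.Prime) (hm : 0 < m) {ζ : L}
    (hζ : IsPrimitiveRoot ζ (q ^ m)) (hqA : A.valuation (q : L) < 1)
    (hK : ∀ c ∈ K, c ≠ 0 → ∃ n : ℤ, A.valuation c = A.valuation (q : L) ^ n) :
    ∀ c ∈ K⟮ζ⟯, c ≠ 0 → ∃ n : ℤ, A.valuation c = A.valuation (1 - ζ) ^ n := by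
  have hn : q ^ m ≠ 0 := pow_ne_zero _ hq.ne_zero
  have hπe := valuation_one_sub_pow_totient A hq hm hζ
  have hπ0 : 1 - ζ ≠ 0 := one_sub_ne_zero hq hm hζ
  have hq0 : (q : L) ≠ 0 := by
    intro h
    rw [h, map_zero] at hπe
    exact (Valuation.ne_zero_iff _).2 hπ0 (pow_eq_zero_iff (Nat.totient_pos.2
      (Nat.pos_of_ne_zero hn)).ne' |>.1 hπe)
  set P : Polynomial K := (cyclotomic (q ^ m) K).comp (C 1 - X) with hPdef
  have hlin : (C 1 - X : Polynomial K).natDegree = 1 := by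
    have h1 : (C 1 - X : Polynomial K) = -(X - C 1) := by ring
    rw [h1, natDegree_neg, natDegree_X_sub_C]
  have hP : P ≠ 0 := by
    rw [hPdef, Ne, comp_eq_zero_iff]
    rintro (h | ⟨_, h⟩)
    · exact cyclotomic_ne_zero _ _ h
    · have h1 := congrArg natDegree h
      rw [hlin, natDegree_C] at h1
      exact one_ne_zero h1
  have hPdeg : P.natDegree ≤ Nat.totient (q ^ m) := by
    refine natDegree_comp_le.trans ?_
    rw [hlin, mul_one, natDegree_cyclotomic]
  have hPπ : aeval (1 - ζ) P = 0 := by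
    rw [hPdef, aeval_comp]
    have h1 : aeval (1 - ζ) (C 1 - X : Polynomial K) = ζ := by
      rw [map_sub, aeval_C, aeval_X, map_one]
      ring
    rw [h1, aeval_def, eval₂_eq_eval_map, map_cyclotomic]
    exact hζ.isRoot_cyclotomic (Nat.pos_of_ne_zero hn)
  rw [adjoin_one_sub K ζ]
  exact valuation_mem_zpowers_of_mem_adjoin A K hπe hq0 hqA hK P hP hPdeg hPπ

end TotRam

end Fermat.Agent.S45lib.Gauss
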