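/-
S45lib / Gauss / FixGen  (helper2)  --  Project J, (KM) tower: the fixed field is generated over
its constants by the `j(t^d)`, and Gauss ratios for homomorphisms out of it.

* `mem_span_of_isFixed` : abstract Galois descent for spans (semilinear family `ψ` over `φ`, `K`
  the fixed field of `φ`): a fixed vector in the `L`-span of a set `S` of fixed vectors is in the
  `K`-span of `S`;
* `BsubK N H = K[j(t^d) : d ∣ N]` (`K = fixK H`), `mem_BsubK_of_fixed` : the `H`-fixed elements
  of `ℚ̄[j(t^d)]` are in `K[j(t^d)]`;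
* `exists_ratio_fixF` : every element of `fixF N H` is a ratio of elements of `K[j(t^d)]`;
* `genFix N H` (the constants and the `j(t^d)` inside `fixF N H`), `closure_genFix` :
  `Subfield.closure (genFix N H) = ⊤`;
* `hasGaussRatio_fixF_of_disc` : a homomorphism `ι : fixF N (HI A) →+* ℚ̄((t))` which is `C` on the
  constants and sends the `j(t^d)` to bounded series with coefficients in a discretely valued
  subfield `L₀ ⊇ Kfix A` has Gauss ratios everywhere; the cases `L₀ = Kfix A` (`π = q`) and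
  `L₀ = (Kfix A)(ζ)` (`π = 1 - ζ`, `ζ` primitive of order `q^m`).
-/
import Mathlib
import Fermat.Agent.S36lib.Desc.FixF
import Fermat.Agent.S36lib.Desc2.SpeiserBar
import Fermat.Agent.S36lib.Norm.DescendInst
import Fermat.Agent.S45lib.Gauss.Discrete
import Fermat.Agent.S45lib.Gauss.TotRam

set_option autoImplicit false
set_option linter.unusedSectionVars false
set_option linter.unusedVariables false

noncomputable section

namespace Fermat.Agent.S45lib.Gauss

open Fermat.Agent.S36lib.Desc2 Module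

/-! ### abstract descent for spans -/

section Descent

variable {L : Type*} [Field L] {F : Type*} [AddCommGroup F] [Module L F]
variable {Γ : Type*} {φ : Γ → L →+* L} {ψ : Γ → F →+ F}
variable {K : Type*} [Field K] [Algebra K L] [Module K F] [IsScalarTower K L F]

theorem isFixed_of_mem_span (hψ : IsSemilinear φ ψ)
    (hK' : ∀ (σ : Γ) (c : K), φ σ (algebraMap K L c) = algebraMap K L c)
    {S : Set F} (hS : ∀ s ∈ S, IsFixed ψ s) {f : F} (hf : f ∈ Submodule.span K S) :
    IsFixed ψ f := by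
  induction hf using Submodule.span_induction with
  | mem x hx => exact hS x hx
  | zero => exact isFixed_zero ψ
  | add x y _ _ hx hy => exact hx.add hy
  | smul c x _ hx =>
    rw [← algebraMap_smul L c x]
    exact hx.smul_of_fixed hψ fun σ => hK' σ c

/-- **descent for spans**: a fixed vector in the `L`-span of fixed vectors is in their
`K`-span -/
theorem mem_span_of_isFixed (hψ : IsSemilinear φ ψ)
    (hK' : ∀ (σ : Γ) (c : K), φ σ (algebraMap K L c) = algebraMap K L c)
    (hK : ∀ a : L, (∀ σ, φ σ a = a) → a ∈ Set.range (algebraMap K L))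
    {S : Set F} (hS : ∀ s ∈ S, IsFixed ψ s) {f : F} (hf : f ∈ Submodule.span L S)
    (hfix : IsFixed ψ f) : f ∈ Submodule.span K S := by
  classical
  set W : Submodule K F := Submodule.span K S with hW
  let b := Basis.ofVectorSpace K W
  set v : Basis.ofVectorSpaceIndex K W → F := fun i => ((b i : W) : F) with hv
  have hvW : ∀ i, v i ∈ W := fun i => (b i).2
  have hvfix : ∀ i, IsFixed ψ (v i) := fun i => isFixed_of_mem_span hψ hK' hS (hvW i)
  have hvK : LinearIndependent K v :=
    b.linearIndependent.map' W.subtype (Submodule.ker_subtype _)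
  have hvL : LinearIndependent L v := linearIndependent_of_isFixed hψ hK hvfix hvK
  -- `W` is the `K`-span of the `v i`
  have hWv : ∀ w ∈ W, w ∈ Submodule.span K (Set.range v) := by
    intro w hw
    have h2 : (⟨w, hw⟩ : W) ∈ Submodule.span K (Set.range b) := by rw [b.span_eq]; trivial
    have h3 := Submodule.apply_mem_span_image_of_mem_span W.subtype h2
    rw [← Set.range_comp] at h3
    exact h3
  -- `f` is in the `L`-span of the `v i`
  have hfv : f ∈ Submodule.span L (Set.range v) := by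
    have h1 : Submodule.span L S ≤ Submodule.span L (Set.range v) := by
      rw [Submodule.span_le]
      intro s hs
      have h4 : (Submodule.span K (Set.range v) : Set F) ⊆ Submodule.span L (Set.range v) :=
        Submodule.span_subset_span K L _
      exact h4 (hWv s (Submodule.subset_span hs))
    exact h1 hf
  obtain ⟨c, hc⟩ := (Finsupp.mem_span_range_iff_exists_finsupp).1 hfv
  -- the coefficients are fixed
  have hcfix : ∀ σ i, φ σ (c i) = c i := by
    intro σ i
    have h1 : Finsupp.linearCombination L v (c.mapRange (φ σ) (map_zero _)) = ψ σ f := by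
      rw [← hc, Finsupp.linearCombination_apply,
        Finsupp.sum_mapRange_index (fun j => zero_smul L (v j)), Finsupp.sum, Finsupp.sum,
        map_sum]
      exact Finset.sum_congr rfl fun j _ => by rw [hψ, hvfix j σ]
    have h2 : Finsupp.linearCombination L v c = f := by
      rw [Finsupp.linearCombination_apply]
      exact hc
    have h3 : c.mapRange (φ σ) (map_zero _) = c := by
      apply hvL.finsuppLinearCombination_injective
      rw [h1, h2, hfix σ]
    have h4 := DFunLike.congr_fun h3 i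
    rwa [Finsupp.mapRange_apply] at h4
  -- so they come from `K`
  have hcK : ∀ i, ∃ k : K, algebraMap K L k = c i := fun i => hK (c i) fun σ => hcfix σ i
  choose k hk using hcK
  rw [← hc, Finsupp.sum]
  refine Submodule.sum_mem _ fun i _ => ?_
  rw [← hk i, algebraMap_smul]
  exact Submodule.smul_mem _ _ (hvW i)

end Descent

/-! ### the fixed field is generated by its constants and the `j(t^d)` -/

section Gen

open ModularCurve Fermat.Agent.S29lib.GH Fermat.Agent.S36lib.Desc
open Fermat.Agent.S37lib.HeckeInst (FB)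
open Fermat.Agent.LSb.Val

local notation "Qb" => AlgebraicClosure ℚ
local notation "GQ" => (AlgebraicClosure ℚ ≃ₐ[ℚ] AlgebraicClosure ℚ)

variable (N : ℕ) [NeZero N] (H : Subgroup GQ)

/-- `K[j(t^d) : d ∣ N]`, `K` the fixed field of `H` -/
def BsubK : Subalgebra (fixK H) (FB N) := Algebra.adjoin (fixK H) (jdSet N)

theorem jd_mem_BsubK (d : ℕ) [NeZero d] (hd : d ∣ N) : jd N d hd ∈ BsubK N H :=
  Algebra.subset_adjoin ⟨d, inferInstance, hd, rfl⟩

theorem isFixed_of_mem_closure_jdSet {x : FB N} (hx : x ∈ Submonoid.closure (jdSet N)) :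
    IsFixed (galPsi N H) x := by
  induction hx using Submonoid.closure_induction with
  | mem x hx =>
    obtain ⟨d, hd0, hd, rfl⟩ := hx
    exact Fermat.Agent.S36lib.Norm.jd_mem_fixF H N d hd
  | one => exact fun σ => galPsi_one N H σ
  | mul x y _ _ hx hy => exact fun σ => by rw [galPsi_mul, hx σ, hy σ]

/-- the elements of `K[j(t^d)]` are `H`-fixed -/
theorem mem_fixF_of_mem_BsubK {x : FB N} (hx : x ∈ BsubK N H) : x ∈ fixF N H := by
  have h1 : x ∈ Submodule.span (fixK H) (Submonoid.closure (jdSet N) : Set (FB N)) := by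
    rw [← Algebra.adjoin_eq_span]
    exact hx
  exact isFixed_of_mem_span (galSemilinear N H) (galPhi_algebraMap H)
    (fun s hs => isFixed_of_mem_closure_jdSet N H hs) h1

/-- **the `H`-fixed elements of `ℚ̄[j(t^d)]` are in `K[j(t^d)]`** -/
theorem mem_BsubK_of_fixed {P : FB N} (hP : P ∈ Bsub N)
    (hfix : ∀ σ ∈ H, galAutBar N σ • P = P) : P ∈ BsubK N H := by
  have h1 : P ∈ Submodule.span Qb (Submonoid.closure (jdSet N) : Set (FB N)) := by
    rw [← Algebra.adjoin_eq_span]
    exact hP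
  have h2 := mem_span_of_isFixed (K := fixK H) (galSemilinear N H) (galPhi_algebraMap H)
    (mem_range_of_galPhi_fixed H) (fun s hs => isFixed_of_mem_closure_jdSet N H hs) h1
    ((isFixed_galPsi_iff N H).2 hfix)
  rw [← Algebra.adjoin_eq_span] at h2
  exact h2

/-- **every element of the fixed field is a ratio of elements of `K[j(t^d)]`** -/
theorem exists_ratio_fixF (f : fixF N H) :
    ∃ P ∈ BsubK N H, ∃ Q ∈ BsubK N H, Q ≠ 0 ∧ (f : FB N) * Q = P := by
  obtain ⟨P, hP, Q, hQ, hQ0, hfQ, hQfix, hPfix⟩ := exists_fixed_ratio N H (mem_fixF.1 f.2)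
  exact ⟨P, mem_BsubK_of_fixed N H hP hPfix, Q, mem_BsubK_of_fixed N H hQ hQfix, hQ0, hfQ⟩

/-- `j(t^d)` as an element of the fixed field -/
def jdFix (d : ℕ) [NeZero d] (hd : d ∣ N) : fixF N H :=
  ⟨jd N d hd, Fermat.Agent.S36lib.Norm.jd_mem_fixF H N d hd⟩

@[simp] theorem coe_jdFix (d : ℕ) [NeZero d] (hd : d ∣ N) :
    ((jdFix N H d hd : fixF N H) : FB N) = jd N d hd := rfl

/-- the generators of the fixed field: the constants and the `j(t^d)` -/
def genFix : Set (fixF N H) :=
  Set.range (algebraMap (fixK H) (fixF N H)) ∪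
    {x | ∃ (d : ℕ) (_ : NeZero d) (hd : d ∣ N), x = jdFix N H d hd}

theorem algebraMap_mem_genFix (c : fixK H) : algebraMap (fixK H) (fixF N H) c ∈ genFix N H :=
  Or.inl ⟨c, rfl⟩

theorem jdFix_mem_genFix (d : ℕ) [NeZero d] (hd : d ∣ N) : jdFix N H d hd ∈ genFix N H :=
  Or.inr ⟨d, inferInstance, hd, rfl⟩

theorem mem_closure_genFix_of_mem_BsubK {x : FB N} (hx : x ∈ BsubK N H) :
    ∀ h : x ∈ fixF N H, (⟨x, h⟩ : fixF N H) ∈ Subfield.closure (genFix N H) := by
  induction hx using Algebra.adjoin_induction with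
  | mem x hx =>
    obtain ⟨d, hd0, hd, rfl⟩ := hx
    intro h
    exact Subfield.subset_closure (jdFix_mem_genFix N H d hd)
  | algebraMap c =>
    intro h
    exact Subfield.subset_closure (algebraMap_mem_genFix N H c)
  | add x y hx hy ihx ihy =>
    intro h
    have h1 := add_mem (ihx (mem_fixF_of_mem_BsubK N H hx)) (ihy (mem_fixF_of_mem_BsubK N H hy))
    exact h1
  | mul x y hx hy ihx ihy =>
    intro h
    have h1 := mul_mem (ihx (mem_fixF_of_mem_BsubK N H hx)) (ihy (mem_fixF_of_mem_BsubK N H hy))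
    exact h1

/-- **the fixed field is generated by the constants and the `j(t^d)`** -/
theorem closure_genFix : Subfield.closure (genFix N H) = ⊤ := by
  rw [eq_top_iff]
  rintro f -
  obtain ⟨P, hP, Q, hQ, hQ0, hfQ⟩ := exists_ratio_fixF N H f
  have hPc := mem_closure_genFix_of_mem_BsubK N H hP (mem_fixF_of_mem_BsubK N H hP)
  have hQc := mem_closure_genFix_of_mem_BsubK N H hQ (mem_fixF_of_mem_BsubK N H hQ)
  have hQ0' : (⟨Q, mem_fixF_of_mem_BsubK N H hQ⟩ : fixF N H) ≠ 0 := by
    intro h0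
    exact hQ0 (congrArg Subtype.val h0)
  have e : f = ⟨P, mem_fixF_of_mem_BsubK N H hP⟩ / ⟨Q, mem_fixF_of_mem_BsubK N H hQ⟩ := by
    rw [eq_div_iff hQ0']
    exact Subtype.ext hfQ
  rw [e]
  exact div_mem hPc hQc

end Gen

/-! ### Gauss ratios for homomorphisms out of the fixed field -/

section Ratio

open ModularCurve Fermat.Agent.S29lib.GH Fermat.Agent.S36lib.Desc
open Fermat.Agent.S37lib.HeckeInst (FB)
open Fermat.Agent.LSb.Val IntermediateField

local notation "Qb" => AlgebraicClosure ℚ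
local notation "GQ" => (AlgebraicClosure ℚ ≃ₐ[ℚ] AlgebraicClosure ℚ)

variable (A : ValuationSubring Qb) {q : ℕ} (N : ℕ) [NeZero N]

/-- **Gauss ratios from the generators**: `ι` is `C` on the constants and maps the `j(t^d)` to
integral series with coefficients in a discretely valued subfield `L₀ ⊇ K`. -/
theorem hasGaussRatio_fixF_of_disc (L₀ : Subfield Qb) {π : Qb} (hπ0 : π ≠ 0)
    (hπ : A.valuation π < 1)
    (hL₀ : ∀ c ∈ L₀, c ≠ 0 → ∃ m : ℤ, A.valuation c = A.valuation π ^ m)
    (hKL : ∀ c : fixK (A.inertiaSubgroupIn ℚ), (c : Qb) ∈ L₀)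
    (ι : fixF N (A.inertiaSubgroupIn ℚ) →+* LaurentSeries Qb)
    (hc : ∀ c : fixK (A.inertiaSubgroupIn ℚ),
      ι (algebraMap (fixK (A.inertiaSubgroupIn ℚ)) (fixF N (A.inertiaSubgroupIn ℚ)) c) =
        HahnSeries.C (c : Qb))
    (hj : ∀ (d : ℕ) [NeZero d] (hd : d ∣ N),
      IsInt A (ι (jdFix N (A.inertiaSubgroupIn ℚ) d hd)) ∧
        ∀ n, (ι (jdFix N (A.inertiaSubgroupIn ℚ) d hd)).coeff n ∈ L₀) :
    ∀ x : fixF N (A.inertiaSubgroupIn ℚ), x ≠ 0 → HasGaussRatio A ι x := by
  refine hasGaussRatio_of_closure A ι L₀ hπ0 hπ hL₀ (genFix N (A.inertiaSubgroupIn ℚ))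
    (closure_genFix N (A.inertiaSubgroupIn ℚ)) ?_
  -- constants of valuation `≤ 1`
  have hint : ∀ c : fixK (A.inertiaSubgroupIn ℚ), A.valuation (c : Qb) ≤ 1 →
      algebraMap (fixK (A.inertiaSubgroupIn ℚ)) (fixF N (A.inertiaSubgroupIn ℚ)) c ∈
        ratioSubfield A ι L₀ := by
    intro c hcv
    refine mem_ratioSubfield_of_int A ι L₀ ?_ ?_
    · intro n
      rw [hc, HahnSeries.C_apply, HahnSeries.coeff_single]
      split_ifs
      · exact hKL c
      · exact zero_mem _
    · intro n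
      rw [hc, HahnSeries.C_apply, HahnSeries.coeff_single]
      split_ifs
      · exact (A.valuation_le_one_iff _).1 hcv
      · exact zero_mem _
  rintro x (⟨c, rfl⟩ | ⟨d, hd0, hd, rfl⟩)
  · rcases le_total (A.valuation (c : Qb)) 1 with h | h
    · exact hint c h
    · have hc0 : c ≠ 0 := by
        rintro rfl
        have h0 : A.valuation (((0 : fixK (A.inertiaSubgroupIn ℚ)) : Qb)) = 0 := by
          rw [ZeroMemClass.coe_zero, map_zero]
        rw [h0] at h
        exact not_le.2 zero_lt_one h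
      have h1 : A.valuation ((c⁻¹ : fixK (A.inertiaSubgroupIn ℚ)) : Qb) ≤ 1 := by
        have e : ((c⁻¹ : fixK (A.inertiaSubgroupIn ℚ)) : Qb) = (c : Qb)⁻¹ := rfl
        rw [e, map_inv₀]
        exact inv_le_one_of_one_le₀ h
      have h2 := (ratioSubfield A ι L₀).inv_mem (hint c⁻¹ h1)
      rwa [← map_inv₀, inv_inv] at h2
  · obtain ⟨h1, h2⟩ := hj d hd
    exact mem_ratioSubfield_of_int A ι L₀ h2 h1

/-- the value group of the inertia field is `v(q)^ℤ` -/
theorem valuation_fixK_mem_zpowers (hq : q.Prime) (hA : A.LiesOverPrime q) {c : Qb}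
    (hcK : c ∈ (fixK (A.inertiaSubgroupIn ℚ)).toSubfield) (hc0 : c ≠ 0) :
    ∃ m : ℤ, A.valuation c = A.valuation (q : Qb) ^ m := by
  have hfix : ∀ τ ∈ A.inertiaSubgroupIn ℚ, τ c = c := (mem_Kfix A).1 hcK
  obtain ⟨m, hm⟩ := exists_zpow_mul_unit A hq hA hc0 hfix
  refine ⟨-m, ?_⟩
  rw [map_mul, map_zpow₀] at hm
  have hq0 : A.valuation (q : Qb) ≠ 0 := valuation_q_ne_zero hq
  rw [zpow_neg]
  exact eq_inv_of_mul_eq_one_left hm

/-- **the unramified case**: coefficients in the inertia field -/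
theorem hasGaussRatio_fixF_unram (hq : q.Prime) (hA : A.LiesOverPrime q)
    (ι : fixF N (A.inertiaSubgroupIn ℚ) →+* LaurentSeries Qb)
    (hc : ∀ c : fixK (A.inertiaSubgroupIn ℚ),
      ι (algebraMap (fixK (A.inertiaSubgroupIn ℚ)) (fixF N (A.inertiaSubgroupIn ℚ)) c) =
        HahnSeries.C (c : Qb))
    (hj : ∀ (d : ℕ) [NeZero d] (hd : d ∣ N),
      IsInt A (ι (jdFix N (A.inertiaSubgroupIn ℚ) d hd)) ∧
        ∀ n, (ι (jdFix N (A.inertiaSubgroupIn ℚ) d hd)).coeff n ∈
          (fixK (A.inertiaSubgroupIn ℚ)).toSubfield) :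
    ∀ x : fixF N (A.inertiaSubgroupIn ℚ), x ≠ 0 → HasGaussRatio A ι x := by
  have hq0 : (q : Qb) ≠ 0 := Nat.cast_ne_zero.2 hq.ne_zero
  exact hasGaussRatio_fixF_of_disc A N (fixK (A.inertiaSubgroupIn ℚ)).toSubfield hq0
    (valuation_q_lt_one hA) (fun c hcK hc0 => valuation_fixK_mem_zpowers A hq hA hcK hc0)
    (fun c => c.2) ι hc hj

/-- **the ramified case**: coefficients in `K(ζ)`, `ζ` a primitive `q^m`-th root of unity -/
theorem hasGaussRatio_fixF_root (hq : q.Prime) (hA : A.LiesOverPrime q) {m : ℕ} (hm : 0 < m)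
    {ζ : Qb} (hζ : IsPrimitiveRoot ζ (q ^ m))
    (ι : fixF N (A.inertiaSubgroupIn ℚ) →+* LaurentSeries Qb)
    (hc : ∀ c : fixK (A.inertiaSubgroupIn ℚ),
      ι (algebraMap (fixK (A.inertiaSubgroupIn ℚ)) (fixF N (A.inertiaSubgroupIn ℚ)) c) =
        HahnSeries.C (c : Qb))
    (hj : ∀ (d : ℕ) [NeZero d] (hd : d ∣ N),
      IsInt A (ι (jdFix N (A.inertiaSubgroupIn ℚ) d hd)) ∧
        ∀ n, (ι (jdFix N (A.inertiaSubgroupIn ℚ) d hd)).coeff n ∈
          ((fixK (A.inertiaSubgroupIn ℚ)).toSubfield⟮ζ⟯).toSubfield) :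
    ∀ x : fixF N (A.inertiaSubgroupIn ℚ), x ≠ 0 → HasGaussRatio A ι x := by
  have hπ0 : 1 - ζ ≠ 0 := one_sub_ne_zero hq hm hζ
  have hπ : A.valuation (1 - ζ) < 1 := valuation_one_sub_lt_one A hq hm hζ (valuation_q_lt_one hA)
  refine hasGaussRatio_fixF_of_disc A N
    ((fixK (A.inertiaSubgroupIn ℚ)).toSubfield⟮ζ⟯).toSubfield hπ0 hπ ?_ ?_ ι hc hj
  · exact valuation_mem_zpowers_of_mem_adjoin_root A (fixK (A.inertiaSubgroupIn ℚ)).toSubfield hq
      hm hζ (valuation_q_lt_one hA)
      (fun c hcK hc0 => valuation_fixK_mem_zpowers A hq hA hcK hc0)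
  · intro c
    exact IntermediateField.algebraMap_mem ((fixK (A.inertiaSubgroupIn ℚ)).toSubfield⟮ζ⟯)
      (⟨(c : Qb), c.2⟩ : (fixK (A.inertiaSubgroupIn ℚ)).toSubfield)

end Ratio

/-! ### integrality and rationality of the substituted `j`-series -/

section JS

open ModularCurve Fermat.Agent.S28lib

variable {L : Type*} [Field L]

theorem coeff_mem_qExpand (L₀ : Subfield L) (e : ℕ) [NeZero e] {f : LaurentSeries L}
    (hf : ∀ n, f.coeff n ∈ L₀) (n : ℤ) : (qExpand L e f).coeff n ∈ L₀ := by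
  by_cases h : (e : ℤ) ∣ n
  · obtain ⟨k, rfl⟩ := h
    rw [qExpand_coeff_mul]
    exact hf k
  · rw [qExpand_coeff_of_not_dvd (R := L) (N := e) f h]
    exact zero_mem _

theorem isInt_qExpand (A : ValuationSubring L) (e : ℕ) [NeZero e] {f : LaurentSeries L}
    (hf : IsInt A f) : IsInt A (qExpand L e f) := by
  intro n
  by_cases h : (e : ℤ) ∣ n
  · obtain ⟨k, rfl⟩ := h
    rw [qExpand_coeff_mul]
    exact hf k
  · rw [qExpand_coeff_of_not_dvd (R := L) (N := e) f h]
    exact zero_mem _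

theorem coeff_mem_twist (L₀ : Subfield L) (ζ : Lˣ) (hζ : (ζ : L) ∈ L₀) {f : LaurentSeries L}
    (hf : ∀ n, f.coeff n ∈ L₀) (n : ℤ) : (twist ζ f).coeff n ∈ L₀ := by
  rw [twist_coeff]
  refine mul_mem ?_ (hf n)
  rw [Units.val_zpow_eq_zpow_val]
  exact zpow_mem hζ n

theorem isInt_twist (A : ValuationSubring L) (ζ : Lˣ) (hζ : A.valuation (ζ : L) = 1)
    {f : LaurentSeries L} (hf : IsInt A f) : IsInt A (twist ζ f) := by
  intro n
  rw [twist_coeff]
  refine mul_mem ?_ (hf n)
  rw [← A.valuation_le_one_iff, Units.val_zpow_eq_zpow_val, map_zpow₀, hζ, one_zpow]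

theorem coeff_jqModC_mem (L₀ : Subfield L) (n : ℤ) : (jqModC L).coeff n ∈ L₀ := by
  rw [← coeffMap_jqModC (Int.castRingHom L), coeffMap_coeff]
  exact intCast_mem L₀ _

theorem isInt_jqModC (A : ValuationSubring L) : IsInt A (jqModC L) := by
  intro n
  rw [← coeffMap_jqModC (Int.castRingHom L), coeffMap_coeff]
  exact intCast_mem A _

/-- the coefficients of `j(ζ t^e)` are in any subfield containing `ζ` -/
theorem coeff_jS_mem (L₀ : Subfield L) (ζ : Lˣ) (hζ : (ζ : L) ∈ L₀) (e : ℕ) [NeZero e] (n : ℤ) :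
    (jS L ζ e).coeff n ∈ L₀ :=
  coeff_mem_qExpand L₀ e (coeff_mem_twist L₀ ζ hζ (coeff_jqModC_mem L₀)) n

/-- `j(ζ t^e)` is integral when `ζ` is a unit of `A` -/
theorem isInt_jS (A : ValuationSubring L) (ζ : Lˣ) (hζ : A.valuation (ζ : L) = 1) (e : ℕ)
    [NeZero e] : IsInt A (jS L ζ e) :=
  isInt_qExpand A e (isInt_twist A ζ hζ (isInt_jqModC A))

/-- roots of unity are units of `A` -/
theorem valuation_unit_root_eq_one (A : ValuationSubring L) {n : ℕ} (hn : n ≠ 0) {ζ : Lˣ}
    (hζ : ζ ^ n = 1) : A.valuation (ζ : L) = 1 :=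
  valuation_root_eq_one A hn (by rw [← Units.val_pow_eq_pow_val, hζ, Units.val_one])

end JS

end Fermat.Agent.S45lib.Gauss
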