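/-
S45lib / Gauss / Compare  (helper2)  --  Project J: recognising a place as a Gauss place.

`ι : F →+* L((t))`, `A` a valuation ring of `L`.

* `HasModRatio A ι x` : `ι x = c · ι a / ι b` with `a, b ∈ F` mapped to primitive integral series
  (a Gauss ratio whose numerator and denominator come from `F`);
* for a place `P'` of `F` with an embedding `θ` of its residue field into `k((t))` such that
  every `a ∈ F` with integral image lies in `P'.O` and reduces coefficientwise (`hint`), and
  under `hmod : ∀ x ≠ 0, HasModRatio A ι x` :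
  **`place_O_eq_gaussVS : P'.O = gaussVS A ι hι`** and
  **`place_redF_eq_gauss : θ (P'.redF x) = ((gaussPlace A ι hι).redF x : k((t)))`**;
* precomposition with a homomorphism `w : F' →+* F` : `hasGaussRatio_comp_right`,
  `mem_gaussVS_comp_right`, `gaussPlace_comp_right_redF`.
-/
import Mathlib
import Fermat.Agent.S45lib.Gauss.Attain

set_option autoImplicit false
set_option linter.unusedSectionVars false
set_option linter.unusedVariables false

noncomputable section

namespace Fermat.Agent.S45lib.Gauss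

open HahnSeries IsLocalRing Fermat.Agent.S36lib.Norm

variable {L : Type*} [Field L] (A : ValuationSubring L)
variable {F : Type*} [Field F] (ι : F →+* LaurentSeries L)

/-- a Gauss ratio with numerator and denominator coming from `F` -/
def HasModRatio (x : F) : Prop :=
  ∃ (c : L) (a b : F) (g h : LaurentSeries A), c ≠ 0 ∧ red A g ≠ 0 ∧ red A h ≠ 0 ∧
    ι a = incl A g ∧ ι b = incl A h ∧ ι x * ι b = HahnSeries.C c * ι a

theorem HasModRatio.hasGaussRatio {x : F} (hx : HasModRatio A ι x) : HasGaussRatio A ι x := by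
  obtain ⟨c, a, b, g, h, hc, hg, hh, ea, eb, e⟩ := hx
  exact ⟨c, hc, g, h, hg, hh, by rw [← ea, ← eb]; exact e⟩

theorem ne_zero_of_prim {a : F} {g : LaurentSeries A} (e : ι a = incl A g) (hg : red A g ≠ 0) :
    a ≠ 0 := by
  rintro rfl
  rw [map_zero] at e
  exact incl_ne_zero A (red_ne_zero_imp_ne_zero A hg) e.symm

section Place

variable {κ' : Type*} [Field κ'] (P' : Place F κ')
  (θ : κ' →+* LaurentSeries (ResidueField A))
  (hint : ∀ (a : F) (g : LaurentSeries A), ι a = incl A g →
    a ∈ P'.O ∧ θ (P'.redF a) = red A g)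

include hint

theorem place_redF_ne_zero_of_prim {a : F} {g : LaurentSeries A} (e : ι a = incl A g)
    (hg : red A g ≠ 0) : P'.redF a ≠ 0 := by
  intro h0
  have h1 := (hint a g e).2
  rw [h0, map_zero] at h1
  exact hg h1.symm

theorem place_redF_of_C {u : F} {c : L} (hc : c ∈ A) (e : ι u = HahnSeries.C c) :
    u ∈ P'.O ∧ θ (P'.redF u) = HahnSeries.C (residue A ⟨c, hc⟩) := by
  have e1 : ι u = incl A (HahnSeries.C ⟨c, hc⟩) := by rw [incl_C, e]
  obtain ⟨h1, h2⟩ := hint u _ e1
  exact ⟨h1, by rw [h2, red_C]⟩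

theorem place_mem_of_C_iff {u : F} {c : L} (e : ι u = HahnSeries.C c) : u ∈ P'.O ↔ c ∈ A := by
  constructor
  · intro hu
    by_contra hc
    have hc0 : c ≠ 0 := fun h => hc (h ▸ A.zero_mem)
    have hinv : A.valuation c⁻¹ < 1 := by
      rw [map_inv₀]
      have h1 : 1 < A.valuation c := not_le.1 (fun h => hc ((A.valuation_le_one_iff c).1 h))
      exact inv_lt_one_of_one_lt₀ h1
    have hmem : c⁻¹ ∈ A := (A.valuation_le_one_iff _).1 hinv.le
    have e' : ι u⁻¹ = HahnSeries.C c⁻¹ := by rw [map_inv₀, e, map_inv₀]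
    obtain ⟨h1, h2⟩ := place_redF_of_C A ι P' θ hint hmem e'
    have h3 : residue A ⟨c⁻¹, hmem⟩ = 0 := by
      rw [residue_eq_zero_iff, A.valuation_lt_one_iff]
      exact hinv
    rw [h3, map_zero] at h2
    have h4 : P'.redF u⁻¹ = 0 := θ.injective (h2.trans (map_zero θ).symm)
    have hu0 : u ≠ 0 := by
      rintro rfl
      rw [map_zero] at e
      exact C_ne_zero' hc0 e.symm
    have h5 := P'.redF_mul hu h1
    rw [mul_inv_cancel₀ hu0, P'.redF_one, h4, mul_zero] at h5
    exact one_ne_zero h5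
  · intro hc
    exact (place_redF_of_C A ι P' θ hint hc e).1

variable (hι : ∀ x : F, x ≠ 0 → HasGaussRatio A ι x)
  (hmod : ∀ x : F, x ≠ 0 → HasModRatio A ι x)

include hmod

/-- **the valuation ring of `P'` is the Gauss valuation ring** -/
theorem place_O_eq_gaussVS : P'.O = gaussVS A ι hι := by
  ext x
  rcases eq_or_ne x 0 with rfl | hx
  · exact ⟨fun _ => zero_mem _, fun _ => zero_mem _⟩
  obtain ⟨c, a, b, g, h, hc, hg, hh, ea, eb, e⟩ := hmod x hx
  have ha0 : a ≠ 0 := ne_zero_of_prim A ι ea hg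
  have hb0 : b ≠ 0 := ne_zero_of_prim A ι eb hh
  have hra := place_redF_ne_zero_of_prim A ι P' θ hint ea hg
  have hrb := place_redF_ne_zero_of_prim A ι P' θ hint eb hh
  have haO := P'.mem_of_redF_ne_zero hra
  have hbO := P'.mem_of_redF_ne_zero hrb
  have haiO := P'.inv_mem_of_redF_ne_zero hra
  have hbiO := P'.inv_mem_of_redF_ne_zero hrb
  set u : F := x * b * a⁻¹ with hu
  have eu : ι u = HahnSeries.C c := by
    have hιa : ι a ≠ 0 := (map_ne_zero ι).2 ha0
    rw [hu, map_mul, map_mul, map_inv₀, e, mul_assoc, mul_inv_cancel₀ hιa, mul_one]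
  have hxu : x = u * a * b⁻¹ := by
    rw [hu]
    field_simp
  have h1 : x ∈ P'.O ↔ u ∈ P'.O := by
    constructor
    · intro hxO
      exact P'.O.mul_mem _ _ (P'.O.mul_mem _ _ hxO hbO) haiO
    · intro huO
      rw [hxu]
      exact P'.O.mul_mem _ _ (P'.O.mul_mem _ _ huO haO) hbiO
  have e' : ι x * incl A h = HahnSeries.C c * incl A g := by rw [← ea, ← eb]; exact e
  rw [h1, place_mem_of_C_iff A ι P' θ hint eu, mem_gaussVS_iff,
    mem_gaussSubring_iff_of_ratio A ι hg hh e']

/-- **the reduction of `P'` is the Gauss reduction** -/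
theorem place_redF_eq_gauss (x : F) :
    θ (P'.redF x) =
      (((gaussPlace A ι hι).redF x : gaussResidue A ι hι) : LaurentSeries (ResidueField A)) := by
  have hO := place_O_eq_gaussVS A ι P' θ hint hι hmod
  by_cases hxO : x ∈ P'.O
  swap
  · rw [P'.redF_of_not_mem hxO, (gaussPlace A ι hι).redF_of_not_mem (by
      rw [gaussPlace_O, ← hO]; exact hxO), map_zero]
    rfl
  rcases eq_or_ne x 0 with rfl | hx
  · rw [P'.redF_zero, (gaussPlace A ι hι).redF_zero, map_zero]
    rfl
  obtain ⟨c, a, b, g, h, hc, hg, hh, ea, eb, e⟩ := hmod x hx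
  have ha0 : a ≠ 0 := ne_zero_of_prim A ι ea hg
  have hb0 : b ≠ 0 := ne_zero_of_prim A ι eb hh
  have hra := place_redF_ne_zero_of_prim A ι P' θ hint ea hg
  have hrb := place_redF_ne_zero_of_prim A ι P' θ hint eb hh
  have haO := P'.mem_of_redF_ne_zero hra
  have hbO := P'.mem_of_redF_ne_zero hrb
  have haiO := P'.inv_mem_of_redF_ne_zero hra
  have hbiO := P'.inv_mem_of_redF_ne_zero hrb
  set u : F := x * b * a⁻¹ with hu
  have eu : ι u = HahnSeries.C c := by
    have hιa : ι a ≠ 0 := (map_ne_zero ι).2 ha0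
    rw [hu, map_mul, map_mul, map_inv₀, e, mul_assoc, mul_inv_cancel₀ hιa, mul_one]
  have hxu : x = u * a * b⁻¹ := by
    rw [hu]
    field_simp
  have huO : u ∈ P'.O := P'.O.mul_mem _ _ (P'.O.mul_mem _ _ hxO hbO) haiO
  have hcA : c ∈ A := (place_mem_of_C_iff A ι P' θ hint eu).1 huO
  have e' : ι x * incl A h = HahnSeries.C c * incl A g := by rw [← ea, ← eb]; exact e
  rw [gaussPlace_redF_of_ratio A ι hι hcA hg hh e']
  conv_lhs => rw [hxu]
  rw [P'.redF_mul (P'.O.mul_mem _ _ huO haO) hbiO, P'.redF_mul huO haO, P'.redF_inv hrb, map_mul,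
    map_mul, map_inv₀, (place_redF_of_C A ι P' θ hint hcA eu).2, (hint a g ea).2,
    (hint b h eb).2, div_eq_mul_inv]

end Place

/-! ### precomposition -/

section CompRight

variable {F' : Type*} [Field F'] (w : F' →+* F)

theorem hasGaussRatio_comp_right {x : F'} (hx : HasGaussRatio A ι (w x)) :
    HasGaussRatio A (ι.comp w) x := hx

theorem hasGaussRatio_comp_right_all (hι : ∀ x : F, x ≠ 0 → HasGaussRatio A ι x) :
    ∀ x : F', x ≠ 0 → HasGaussRatio A (ι.comp w) x :=
  fun x hx => hι (w x) ((map_ne_zero w).2 hx)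

variable (hι : ∀ x : F, x ≠ 0 → HasGaussRatio A ι x)
  (hι' : ∀ x : F', x ≠ 0 → HasGaussRatio A (ι.comp w) x)

theorem mem_gaussVS_comp_right (x : F') :
    x ∈ gaussVS A (ι.comp w) hι' ↔ w x ∈ gaussVS A ι hι := Iff.rfl

theorem gaussPlace_comp_right_redF (x : F') :
    (((gaussPlace A (ι.comp w) hι').redF x : gaussResidue A (ι.comp w) hι') :
      LaurentSeries (ResidueField A)) =
      (((gaussPlace A ι hι).redF (w x) : gaussResidue A ι hι) :
        LaurentSeries (ResidueField A)) := by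
  by_cases hx : x ∈ gaussSubring A (ι.comp w)
  · have hx' : w x ∈ gaussSubring A ι := hx
    rw [gaussPlace_redF_coe A (ι.comp w) hι' hx, gaussPlace_redF_coe A ι hι hx']
    obtain ⟨g, h, hh, e⟩ := hx
    rw [gaussRed_eq A (ι.comp w) ⟨x, _⟩ hh e, gaussRed_eq A ι ⟨w x, hx'⟩ hh e]
  · have hx' : w x ∉ gaussSubring A ι := hx
    rw [(gaussPlace A (ι.comp w) hι').redF_of_not_mem hx,
      (gaussPlace A ι hι).redF_of_not_mem hx']
    rfl

end CompRight

end Fermat.Agent.S45lib.Gauss
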